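import Fermat.Agent.ES.Ring.Order
import Mathlib.RingTheory.PowerSeries.Trunc
import Mathlib.RingTheory.PowerSeries.Inverse

/-!
# Taylor expansions of integral modular functions in the coordinate `t - a`

At a point `τ₀` whose fibre is good over `A`, a modular function with coefficients in `A` has a
Taylor series in `t - t(τ₀)` with coefficients in `A` (`exists_isDiscSer`), and taking it is a
ring map `discHom`.
-/

set_option autoImplicit false

open Filter Topology UpperHalfPlane CongruenceSubgroup Polynomial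
open scoped MatrixGroups Manifold

noncomputable section

namespace FermatAgent.ES

/-- The functions in `BSub M` vanishing to order at least `r` at `τ`. -/
def ordIdeal {M : ℕ} [NeZero M] (τ : ℍ) (r : ℕ) : Ideal (BSub M) where
  carrier := {f | (r : ℕ∞) ≤ vanishOrd (f : ℍ → ℂ) τ}
  zero_mem' := by
    show (r : ℕ∞) ≤ vanishOrd (0 : ℍ → ℂ) τ
    have h : vanishOrd (0 : ℍ → ℂ) τ = ⊤ :=
      analyticOrderAt_eq_top.mpr (Eventually.of_forall fun z => rfl)
    rw [h]
    exact le_top
  add_mem' {f g} hf hg := le_trans (le_min hf hg) le_analyticOrderAt_add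
  smul_mem' c f hf := by
    show (r : ℕ∞) ≤ vanishOrd ((c : ℍ → ℂ) * (f : ℍ → ℂ)) τ
    rw [vanishOrd_mul (mdifferentiable_of_mem c.2) (mdifferentiable_of_mem f.2)]
    exact le_trans hf le_add_self

theorem mem_ordIdeal {M : ℕ} [NeZero M] {τ : ℍ} {r : ℕ} {f : BSub M} :
    f ∈ ordIdeal τ r ↔ (r : ℕ∞) ≤ vanishOrd (f : ℍ → ℂ) τ := Iff.rfl

theorem mem_ordIdeal_one {M : ℕ} [NeZero M] {τ : ℍ} {f : BSub M} :
    f ∈ ordIdeal τ 1 ↔ (f : ℍ → ℂ) τ = 0 := by
  rw [mem_ordIdeal, Nat.cast_one, Order.one_le_iff_ne_zero, ne_eq,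
    vanishOrd_eq_zero (mdifferentiable_of_mem f.2), not_not]

theorem mul_mem_ordIdeal {M : ℕ} [NeZero M] {τ : ℍ} {r s : ℕ} {f g : BSub M}
    (hf : f ∈ ordIdeal τ r) (hg : g ∈ ordIdeal τ s) : f * g ∈ ordIdeal τ (r + s) := by
  rw [mem_ordIdeal, MulMemClass.coe_mul, vanishOrd_mul (mdifferentiable_of_mem f.2)
    (mdifferentiable_of_mem g.2), Nat.cast_add]
  exact add_le_add hf hg

variable {M m : ℕ} [NeZero M] (haux : AuxLevel M m)
include haux

/-- The coordinate `t - t(τ0)`. -/
def discVar (τ0 : ℍ) : BSub M :=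
  ⟨hauptSub haux (haupt haux.dvd τ0),
    sub_mem (polFun_mem_BSub haux 1 (one_le haux)) ((BSub M).algebraMap_mem _)⟩

theorem coe_discVar (τ0 : ℍ) :
    (discVar haux τ0 : ℍ → ℂ) = hauptSub haux (haupt haux.dvd τ0) := rfl

theorem discVar_mem_ordIdeal (τ0 : ℍ) : discVar haux τ0 ∈ ordIdeal τ0 1 := by
  rw [mem_ordIdeal, coe_discVar, vanishOrd_hauptSub haux τ0, Nat.cast_one]

theorem pow_discVar_mem (τ0 : ℍ) (r : ℕ) : discVar haux τ0 ^ r ∈ ordIdeal τ0 r := by
  induction r with
  | zero => simp [mem_ordIdeal]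
  | succ r ih => rw [pow_succ]; exact mul_mem_ordIdeal ih (discVar_mem_ordIdeal haux τ0)

/-- Evaluation of polynomials at the coordinate. -/
def discPol (τ0 : ℍ) : ℂ[X] →ₐ[ℂ] BSub M := aeval (discVar haux τ0)

theorem discPol_mem_of_dvd {τ0 : ℍ} {r : ℕ} {Q : ℂ[X]} (h : X ^ r ∣ Q) :
    discPol haux τ0 Q ∈ ordIdeal τ0 r := by
  obtain ⟨R, rfl⟩ := h
  rw [map_mul, map_pow, discPol, aeval_X]
  exact Ideal.mul_mem_right _ _ (pow_discVar_mem haux τ0 r)

theorem X_pow_dvd_of_discPol_mem {τ0 : ℍ} {r : ℕ} {Q : ℂ[X]}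
    (h : discPol haux τ0 Q ∈ ordIdeal τ0 r) : X ^ r ∣ Q := by
  induction r with
  | zero => simp
  | succ r ih =>
    obtain ⟨R, rfl⟩ := ih (mem_ordIdeal.mpr (le_trans (by exact_mod_cast Nat.le_succ r)
      (mem_ordIdeal.mp h)))
    rw [pow_succ]
    refine mul_dvd_mul_left _ (X_dvd_iff.mpr ?_)
    rw [map_mul, map_pow, discPol, aeval_X, mem_ordIdeal, MulMemClass.coe_mul,
      SubmonoidClass.coe_pow, vanishOrd_mul ?_
      (mdifferentiable_of_mem (aeval (discVar haux τ0) R).2),
      vanishOrd_pow (mdifferentiable_of_mem (discVar haux τ0).2), coe_discVar,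
      vanishOrd_hauptSub haux τ0, nsmul_one] at h
    · by_contra hne
      have h0 : vanishOrd (aeval (discVar haux τ0) R : BSub M) τ0 = 0 := by
        rw [vanishOrd_eq_zero (mdifferentiable_of_mem (aeval (discVar haux τ0) R).2)]
        have e : ((aeval (discVar haux τ0) R : BSub M) : ℍ → ℂ) τ0 = R.coeff 0 := by
          have e1 := (aeval_algHom_apply ((Pi.evalAlgHom ℂ (fun _ : ℍ => ℂ) τ0).comp (BSub M).val)
            (discVar haux τ0) R).symm
          refine e1.trans ?_
          simp [coe_discVar, hauptSub, ← coeff_zero_eq_eval_zero]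
        rw [e]
        exact hne
      rw [h0, add_zero] at h
      norm_cast at h
      omega
    · exact mdifferentiable_of_mem (pow_mem (discVar haux τ0).2 r)

/-- `C` is the Taylor series of `x` in the coordinate `t - t(τ0)`. -/
def IsDiscSer (τ0 : ℍ) (x : BSub M) (C : PowerSeries ℂ) : Prop :=
  ∀ r, x - discPol haux τ0 (C.trunc r) ∈ ordIdeal τ0 r

variable {haux} {τ0 : ℍ} {x y : BSub M} {C D : PowerSeries ℂ}

/-- Disc series are unique. -/
theorem IsDiscSer.unique (hC : IsDiscSer haux τ0 x C) (hD : IsDiscSer haux τ0 x D) : C = D := by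
  ext i
  have h : discPol haux τ0 (C.trunc (i + 1) - D.trunc (i + 1)) ∈ ordIdeal τ0 (i + 1) := by
    have := sub_mem (hD (i + 1)) (hC (i + 1))
    rwa [sub_sub_sub_cancel_left, ← map_sub] at this
  have h' := Polynomial.X_pow_dvd_iff.mp (X_pow_dvd_of_discPol_mem haux h) i (Nat.lt_succ_self i)
  rw [Polynomial.coeff_sub, PowerSeries.coeff_trunc, PowerSeries.coeff_trunc,
    if_pos (Nat.lt_succ_self i), if_pos (Nat.lt_succ_self i), sub_eq_zero] at h'
  exact h'

/-- Disc series are additive. -/
theorem IsDiscSer.add (hC : IsDiscSer haux τ0 x C) (hD : IsDiscSer haux τ0 y D) :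
    IsDiscSer haux τ0 (x + y) (C + D) := fun r => by
  rw [map_add, map_add, add_sub_add_comm]
  exact add_mem (hC r) (hD r)

/-- Disc series are multiplicative. -/
theorem IsDiscSer.mul (hC : IsDiscSer haux τ0 x C) (hD : IsDiscSer haux τ0 y D) :
    IsDiscSer haux τ0 (x * y) (C * D) := fun r => by
  have h : X ^ r ∣ C.trunc r * D.trunc r - (C * D).trunc r := by
    rw [Polynomial.X_pow_dvd_iff]
    intro d hd
    rw [Polynomial.coeff_sub, PowerSeries.coeff_trunc, if_pos hd,
      PowerSeries.coeff_mul_eq_coeff_trunc_mul_trunc C D hd, ← Polynomial.coe_mul,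
      Polynomial.coeff_coe, sub_self]
  have e : x * y - discPol haux τ0 ((C * D).trunc r) =
      x * (y - discPol haux τ0 (D.trunc r)) +
        discPol haux τ0 (D.trunc r) * (x - discPol haux τ0 (C.trunc r)) +
        discPol haux τ0 (C.trunc r * D.trunc r - (C * D).trunc r) := by
    rw [map_sub (discPol haux τ0), map_mul (discPol haux τ0)]
    ring
  rw [e]
  exact add_mem (add_mem (Ideal.mul_mem_left _ _ (hD r)) (Ideal.mul_mem_left _ _ (hC r)))
    (discPol_mem_of_dvd haux h)

theorem isDiscSer_const (c : ℂ) :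
    IsDiscSer haux τ0 (algebraMap ℂ (BSub M) c) (PowerSeries.C c) := fun r => by
  cases r with
  | zero => simp [mem_ordIdeal]
  | succ r => rw [PowerSeries.trunc_C, discPol, aeval_C, sub_self]; exact zero_mem _

theorem isDiscSer_discVar : IsDiscSer haux τ0 (discVar haux τ0) PowerSeries.X := fun r => by
  match r with
  | 0 => simp [mem_ordIdeal]
  | 1 =>
    have h : (PowerSeries.X : PowerSeries ℂ).trunc 1 = 0 := by
      ext i
      simp [PowerSeries.coeff_X]
    rw [h, map_zero, sub_zero]
    exact discVar_mem_ordIdeal haux τ0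
  | r + 2 => rw [PowerSeries.trunc_X, discPol, aeval_X, sub_self]; exact zero_mem _

/-- The constant term of the disc series is the value at the point. -/
theorem IsDiscSer.constantCoeff (hC : IsDiscSer haux τ0 x C) :
    PowerSeries.constantCoeff C = (x : ℍ → ℂ) τ0 := by
  have h := mem_ordIdeal_one.mp (hC 1)
  have e : C.trunc 1 = Polynomial.C (PowerSeries.constantCoeff C) := by
    ext i
    rcases i with _ | i <;> simp
  rw [e, discPol, aeval_C, AddSubgroupClass.coe_sub] at h
  simp only [Pi.sub_apply, sub_eq_zero] at h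
  exact h.symm

variable (haux) (τ0)

/-- An element of `BRing M A` as an element of `BSub M`. -/
def toBSub {A : Subring ℂ} : BRing M A →+* BSub M where
  toFun x := ⟨x.1, x.2.1⟩
  map_one' := rfl
  map_mul' _ _ := rfl
  map_zero' := rfl
  map_add' _ _ := rfl

omit haux in
@[simp] theorem coe_toBSub {A : Subring ℂ} (x : BRing M A) :
    (toBSub x : ℍ → ℂ) = (x : ℍ → ℂ) := rfl

/-- Polynomials approximating `x` to every order in `t - a` give its Taylor series. -/
theorem exists_isDiscSer_of_approx {A : Subring ℂ} (x : BRing M A)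
    (h : ∀ r, ∃ Q : A[X], toBSub x - discPol haux τ0 (Q.map A.subtype) ∈ ordIdeal τ0 r) :
    ∃ C : PowerSeries A, IsDiscSer haux τ0 (toBSub x) (PowerSeries.map A.subtype C) := by
  choose Q hQ using h
  have hcompat : ∀ {i r}, i < r → ((Q r).coeff i : ℂ) = ((Q (i + 1)).coeff i : ℂ) := by
    intro i r hir
    have h1 : toBSub x - discPol haux τ0 ((Q r).map A.subtype) ∈ ordIdeal τ0 (i + 1) :=
      mem_ordIdeal.mpr (le_trans (by exact_mod_cast hir) (mem_ordIdeal.mp (hQ r)))
    have h2 := sub_mem (hQ (i + 1)) h1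
    rw [sub_sub_sub_cancel_left, ← map_sub] at h2
    have h' := Polynomial.X_pow_dvd_iff.mp (X_pow_dvd_of_discPol_mem haux h2)
      i (Nat.lt_succ_self i)
    rwa [Polynomial.coeff_sub, Polynomial.coeff_map, Polynomial.coeff_map, sub_eq_zero] at h'
  refine ⟨PowerSeries.mk fun i => (Q (i + 1)).coeff i, fun r => ?_⟩
  have hX : X ^ r ∣ (Q r).map A.subtype -
      (PowerSeries.map A.subtype (PowerSeries.mk fun i => (Q (i + 1)).coeff i)).trunc r := by
    rw [Polynomial.X_pow_dvd_iff]
    intro d hd
    rw [Polynomial.coeff_sub, Polynomial.coeff_map, PowerSeries.coeff_trunc, if_pos hd,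
      PowerSeries.coeff_map, PowerSeries.coeff_mk, sub_eq_zero]
    exact hcompat hd
  have := add_mem (hQ r) (discPol_mem_of_dvd haux (τ0 := τ0) hX)
  rwa [map_sub, sub_add_sub_cancel] at this

omit haux in
/-- A polynomial with constant term `1` times the truncated inverse series is `1` up to `X ^ r`. -/
theorem X_pow_dvd_mul_trunc_invOfUnit_sub_one {A : Subring ℂ} {E : A[X]} (hE0 : E.coeff 0 = 1)
    (r : ℕ) : X ^ r ∣ E.map A.subtype *
      ((PowerSeries.invOfUnit (E : PowerSeries A) 1).trunc r).map A.subtype - 1 := by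
  set I : PowerSeries A := PowerSeries.invOfUnit (E : PowerSeries A) 1
  rw [← Polynomial.map_mul, ← Polynomial.map_one A.subtype, ← Polynomial.map_sub]
  suffices h0 : X ^ r ∣ E * I.trunc r - 1 by
    simpa using _root_.map_dvd (Polynomial.mapRingHom A.subtype) h0
  rw [Polynomial.X_pow_dvd_iff]
  intro d hd
  rw [Polynomial.coeff_sub, ← Polynomial.coeff_coe (φ := E * I.trunc r), Polynomial.coe_mul,
    PowerSeries.coeff_mul_eq_coeff_trunc_mul_trunc _ _ hd, PowerSeries.trunc_trunc,
    ← PowerSeries.coeff_mul_eq_coeff_trunc_mul_trunc _ _ hd,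
    PowerSeries.mul_invOfUnit _ _ (by simpa using hE0), ← Polynomial.coeff_coe,
    Polynomial.coe_one, sub_self]

/-- **Integrality of Taylor expansions at a good point.** A modular function with coefficients in
`A` has a Taylor series in `t - a` over `A`, the idempotent of the fibre having an invertible
series. -/
theorem exists_isDiscSer {A : Subring ℂ} (hA : GoodRoot M A (zetaC M))
    (hg : GoodPoint haux A τ0) (x : BRing M A) :
    ∃ C : PowerSeries A, IsDiscSer haux τ0 (toBSub x) (PowerSeries.map A.subtype C) := by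
  classical
  set e : BRing M A := ⟨fibIdem haux τ0 1, fibIdem_mem haux hA hg 1⟩ with he
  have he1 : (e : ℍ → ℂ) τ0 = 1 := by
    rw [← apply_orbPt_one e.2.1 τ0]
    show fibIdem haux τ0 1 _ = 1
    rw [fibIdem_orbPt haux, if_pos rfl]
  have hval : ∀ y : BRing M A, (y : ℍ → ℂ) τ0 ∈ A := fun y => by
    rw [← apply_orbPt_one y.2.1 τ0]
    exact (exists_fibre_decomp haux hA hg y.2).1 1
  suffices key : ∀ r, ∀ y : BRing M A, ∃ Q : A[X],
      toBSub y - discPol haux τ0 (Q.map A.subtype) ∈ ordIdeal τ0 r by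
    exact exists_isDiscSer_of_approx haux τ0 x fun r => key r x
  intro r
  induction r with
  | zero => exact fun y => ⟨0, by simp [mem_ordIdeal]⟩
  | succ r ih =>
    intro y
    rcases Nat.eq_zero_or_pos r with rfl | hr
    · refine ⟨Polynomial.C ⟨_, hval y⟩, mem_ordIdeal_one.mpr ?_⟩
      rw [Polynomial.map_C, discPol, aeval_C]
      simp
    set c : BRing M A := ⟨_, const_mem_BRing (hval y)⟩
    obtain ⟨y1, hy1, heq⟩ :=
      exists_eq_mul_of_fibre_zero haux hA hg (x := (e * (y - c) : BRing M A).1)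
      (e * (y - c)).2 (fun g => by
        rw [Subring.coe_mul, AddSubgroupClass.coe_sub, Pi.mul_apply, Pi.sub_apply]
        by_cases hg1 : (1 : GalGrp M m) = g
        · subst hg1
          rw [apply_orbPt_one y.2.1, sub_self, mul_zero]
        · rw [he]
          show fibIdem haux τ0 1 _ * _ = 0
          rw [fibIdem_orbPt haux, if_neg hg1, zero_mul])
    obtain ⟨B, hB⟩ := ih ⟨y1, hy1⟩
    obtain ⟨E, hE⟩ := ih e
    -- invert the series of the idempotent
    have hE0 : E.coeff 0 = 1 := by
      have h := mem_ordIdeal_one.mp (mem_ordIdeal.mpr (le_trans (by exact_mod_cast hr)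
        (mem_ordIdeal.mp hE)) : toBSub e - discPol haux τ0 (E.map A.subtype) ∈ ordIdeal τ0 1)
      rw [AddSubgroupClass.coe_sub, Pi.sub_apply, sub_eq_zero] at h
      have e2 : ((discPol haux τ0 (E.map A.subtype) : BSub M) : ℍ → ℂ) τ0 = (E.coeff 0 : ℂ) := by
        refine ((aeval_algHom_apply ((Pi.evalAlgHom ℂ (fun _ : ℍ => ℂ) τ0).comp (BSub M).val)
            (discVar haux τ0) (E.map A.subtype)).symm).trans ?_
        simp [coe_discVar, hauptSub, ← coeff_zero_eq_eval_zero]
      exact Subtype.ext ((he1 ▸ h.trans e2).symm)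
    set I : PowerSeries A := PowerSeries.invOfUnit (E : PowerSeries A) 1
    have hI : X ^ r ∣ E.map A.subtype * (I.trunc r).map A.subtype - 1 :=
      X_pow_dvd_mul_trunc_invOfUnit_sub_one hE0 r
    set J : BSub M := discPol haux τ0 ((I.trunc r).map A.subtype)
    refine ⟨Polynomial.C ⟨_, hval y⟩ + X * B * I.trunc r, ?_⟩
    have heq' : toBSub e * (toBSub y - toBSub c) = discVar haux τ0 * toBSub ⟨y1, hy1⟩ :=
      Subtype.ext heq
    have hunit : toBSub e * J - 1 ∈ ordIdeal τ0 r := by
      have := add_mem (Ideal.mul_mem_right J _ hE) (discPol_mem_of_dvd haux (τ0 := τ0) hI)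
      rw [map_sub, map_mul, map_one] at this
      convert this using 1
      ring
    have hyc : toBSub y - toBSub c ∈ ordIdeal τ0 1 := by
      rw [mem_ordIdeal_one, AddSubgroupClass.coe_sub, Pi.sub_apply]
      exact sub_self _
    have hterm := add_mem (mul_mem_ordIdeal (discVar_mem_ordIdeal haux τ0)
      (Ideal.mul_mem_right J _ hB)) (neg_mem (mul_mem_ordIdeal hyc hunit))
    rw [add_comm 1 r] at hterm
    convert hterm using 1
    have hc : toBSub c = discPol haux τ0 (Polynomial.C ((y : ℍ → ℂ) τ0)) := by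
      rw [discPol, aeval_C]; rfl
    rw [Polynomial.map_add, Polynomial.map_mul, Polynomial.map_mul, Polynomial.map_C,
      Polynomial.map_X, Subring.coe_subtype, map_add, map_mul, map_mul, ← hc,
      show discPol haux τ0 X = discVar haux τ0 from aeval_X _]
    linear_combination J * heq'

variable {A : Subring ℂ} (hA : GoodRoot M A (zetaC M)) (hg : GoodPoint haux A τ0)

/-- The Taylor series at a good point. -/
def discHom : BRing M A →+* PowerSeries A :=
  have key : ∀ {x : BRing M A} {D : PowerSeries A},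
      IsDiscSer haux τ0 (toBSub x) (PowerSeries.map A.subtype D) →
        (exists_isDiscSer haux τ0 hA hg x).choose = D := fun {x D} h =>
    PowerSeries.map_injective _ A.subtype_injective
      ((exists_isDiscSer haux τ0 hA hg x).choose_spec.unique h)
  { toFun := fun x => (exists_isDiscSer haux τ0 hA hg x).choose
    map_one' := key (by
      have h := isDiscSer_const (haux := haux) (τ0 := τ0) 1
      rw [map_one, map_one] at h
      rw [map_one, map_one]
      exact h)
    map_zero' := key (by
      have h := isDiscSer_const (haux := haux) (τ0 := τ0) 0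
      rw [map_zero, map_zero] at h
      rw [map_zero, map_zero]
      exact h)
    map_add' := fun x y => key (by
      rw [map_add, map_add]
      exact (exists_isDiscSer haux τ0 hA hg x).choose_spec.add
        (exists_isDiscSer haux τ0 hA hg y).choose_spec)
    map_mul' := fun x y => key (by
      rw [map_mul, map_mul]
      exact (exists_isDiscSer haux τ0 hA hg x).choose_spec.mul
        (exists_isDiscSer haux τ0 hA hg y).choose_spec) }

theorem discHom_spec (x : BRing M A) :
    IsDiscSer haux τ0 (toBSub x) (PowerSeries.map A.subtype (discHom haux τ0 hA hg x)) :=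
  (exists_isDiscSer haux τ0 hA hg x).choose_spec

theorem discHom_eq {x : BRing M A} {D : PowerSeries A}
    (h : IsDiscSer haux τ0 (toBSub x) (PowerSeries.map A.subtype D)) :
    discHom haux τ0 hA hg x = D :=
  PowerSeries.map_injective _ A.subtype_injective ((discHom_spec haux τ0 hA hg x).unique h)

/-- The disc series of a constant is that constant. -/
theorem discHom_const {c : ℂ} (hc : c ∈ A) :
    discHom haux τ0 hA hg ⟨_, const_mem_BRing hc⟩ = PowerSeries.C ⟨c, hc⟩ :=
  discHom_eq haux τ0 hA hg (by rw [PowerSeries.map_C]; exact isDiscSer_const c)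

/-- The constant term of the disc series is the value at the point, for integral functions. -/
theorem constantCoeff_discHom (x : BRing M A) :
    ((PowerSeries.constantCoeff (discHom haux τ0 hA hg x) : A) : ℂ) = (x : ℍ → ℂ) τ0 := by
  rw [← coe_toBSub x, ← (discHom_spec haux τ0 hA hg x).constantCoeff,
    ← PowerSeries.coeff_zero_eq_constantCoeff,
    ← PowerSeries.coeff_zero_eq_constantCoeff, PowerSeries.coeff_map]
  rfl

/-- The Taylor series of `t` is `t(τ₀) + X`. -/
theorem discHom_haupt :
    discHom haux τ0 hA hg ⟨_, polRing_le_BRing haux hA (haupt_mem_polRing haux A)⟩ =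
      PowerSeries.C ⟨_, hg.val.mem⟩ + PowerSeries.X := by
  refine discHom_eq haux τ0 hA hg ?_
  rw [map_add, PowerSeries.map_C, PowerSeries.map_X]
  have h := (isDiscSer_const (haux := haux) (τ0 := τ0) (haupt haux.dvd τ0)).add isDiscSer_discVar
  convert h using 1
  · exact Subtype.ext (funext fun τ => (add_sub_cancel _ _).symm)
  · rfl

/-- Disc series are compatible with enlarging the ring. -/
theorem discHom_mono {A' : Subring ℂ} (hA' : GoodRoot M A' (zetaC M))
    (hg' : GoodPoint haux A' τ0) (hle : A ≤ A') (x : BRing M A) :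
    discHom haux τ0 hA' hg' ⟨x, x.2.1, fun γ n => hle (x.2.2 γ n)⟩ =
      PowerSeries.map (Subring.inclusion hle) (discHom haux τ0 hA hg x) := by
  refine discHom_eq haux τ0 hA' hg' ?_
  have e : PowerSeries.map A'.subtype (PowerSeries.map (Subring.inclusion hle)
      (discHom haux τ0 hA hg x)) = PowerSeries.map A.subtype (discHom haux τ0 hA hg x) := by
    ext i
    simp
  rw [e]
  exact discHom_spec haux τ0 hA hg x

end FermatAgent.ES
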