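import Fermat.Agent.ES.Coeff.Residue
import Fermat.Agent.ES.Local.Disc

/-!
# Integral modular functions are defined over complete discrete valuation rings

An integral modular function is integral over every good ring containing finitely many constants
(`exists_finset_mem_BRing`), and a good point stays good over a valuation ring containing the
finitely many constants of its fibre (`goodPoint_of_isCDVR`).
-/

set_option autoImplicit false

open UpperHalfPlane CongruenceSubgroup
open scoped MatrixGroups

noncomputable section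

namespace FermatAgent.ES

/-- The ring of integral functions grows with the coefficient ring. -/
theorem BRing_mono {M : ℕ} [NeZero M] {A A' : Subring ℂ} (h : A ≤ A') : BRing M A ≤ BRing M A' :=
  fun _ hf => ⟨hf.1, fun γ k => h (hf.2 γ k)⟩

variable {M m : ℕ} [NeZero M] (haux : AuxLevel M m)
include haux

/-- An integral modular function is integral over any good ring containing finitely many
constants. -/
theorem exists_finset_mem_BRing {A : Subring ℂ} (hA : GoodRoot M A (zetaC M)) {f : ℍ → ℂ}
    (hf : f ∈ BRing M A) :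
    ∃ S : Finset ℂ, (S : Set ℂ) ⊆ A ∧
      ∀ O : Subring ℂ, GoodRoot M O (zetaC M) → (S : Set ℂ) ⊆ O → f ∈ BRing M O := by
  classical
  have h := BRing_le_closure haux hA hf
  have hm : ∀ {g}, g ∈ Subring.closure (ratioGens M A) → g ∈ BRing M A := fun {g} hg =>
    Subring.closure_le.mpr (by
      rintro _ (⟨a, ha, rfl⟩ | ⟨v, w, v', w', hv, hw, h', rfl⟩)
      · exact const_mem_BRing ha
      · exact ratio_mem_BRing hA hv hw h') hg
  induction h using Subring.closure_induction with
  | mem g hg =>
    rcases hg with ⟨a, ha, rfl⟩ | ⟨v, w, v', w', hv, hw, h', rfl⟩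
    · exact ⟨{a}, by simpa using ha, fun O _ hS =>
        const_mem_BRing (hS (by simp))⟩
    · exact ⟨∅, by simp, fun O hO _ => ratio_mem_BRing hO hv hw h'⟩
  | zero => exact ⟨∅, by simp, fun _ _ _ => zero_mem _⟩
  | one => exact ⟨∅, by simp, fun _ _ _ => one_mem _⟩
  | add g1 g2 h1 h2 i1 i2 =>
    obtain ⟨S1, hS1, H1⟩ := i1 (hm h1)
    obtain ⟨S2, hS2, H2⟩ := i2 (hm h2)
    exact ⟨S1 ∪ S2, by simp [hS1, hS2], fun O hO hS => by
      rw [Finset.coe_union, Set.union_subset_iff] at hS
      exact add_mem (H1 O hO hS.1) (H2 O hO hS.2)⟩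
  | neg g hg ih =>
    obtain ⟨S1, hS1, H1⟩ := ih (by simpa using neg_mem hf)
    exact ⟨S1, hS1, fun O hO hS => neg_mem (H1 O hO hS)⟩
  | mul g1 g2 h1 h2 i1 i2 =>
    obtain ⟨S1, hS1, H1⟩ := i1 (hm h1)
    obtain ⟨S2, hS2, H2⟩ := i2 (hm h2)
    exact ⟨S1 ∪ S2, by simp [hS1, hS2], fun O hO hS => by
      rw [Finset.coe_union, Set.union_subset_iff] at hS
      exact mul_mem (H1 O hO hS.1) (H2 O hO hS.2)⟩

/-- The constants needed to work over the fibre of a point. -/
def fibVals (τ0 : ℍ) : Set ℂ :=
  {haupt haux.dvd τ0, hauptRoot haux} ∪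
    (Set.range (fun x : Finset (GalGrp M m) × GalGrp M m =>
        sepA haux x.1 (orbPt M m τ0 x.2)) ∪
      Set.range (fun x : Finset (GalGrp M m) × GalGrp M m =>
        sepB haux x.1 (orbPt M m τ0 x.2)))

/-- The constants of a fibre are finite in number. -/
theorem finite_fibVals (τ0 : ℍ) : (fibVals haux τ0).Finite :=
  (Set.toFinite _).union ((Set.finite_range _).union (Set.finite_range _))

/-- At a good point the constants of the fibre lie in the ring. -/
theorem fibVals_subset {A : Subring ℂ} {τ0 : ℍ} (h : GoodPoint haux A τ0) :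
    fibVals haux τ0 ⊆ A := by
  rintro x ((rfl | rfl) | ⟨p, rfl⟩ | ⟨p, rfl⟩)
  · exact h.val.mem
  · simpa using A.sub_mem h.val.mem h.val.unit_root.2.1
  · exact h.sepA_mem _ _
  · exact h.sepB_mem _ _

/-- A good point is good over a complete discrete valuation ring containing the constants of its
fibre. -/
theorem goodPoint_of_isCDVR {ℓ : ℕ} {P : CPlace ℓ} {O : Subring ℂ} (hO : P.IsCDVR O) {τ0 : ℍ}
    (h : GoodPoint haux P.ring τ0) (hS : fibVals haux τ0 ⊆ O) : GoodPoint haux O τ0 where
  val :=
    { unit := hO.unitIn_of_unitIn (hS (Or.inl (Or.inl rfl))) h.val.unit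
      unit_one := hO.unitIn_of_unitIn (O.sub_mem (hS (Or.inl (Or.inl rfl))) O.one_mem)
        h.val.unit_one
      unit_root := hO.unitIn_of_unitIn (O.sub_mem (hS (Or.inl (Or.inl rfl)))
        (hS (Or.inl (Or.inr rfl)))) h.val.unit_root }
  sepA_mem S g := hS (Or.inr (Or.inl ⟨(S, g), rfl⟩))
  sepB_mem S g := hS (Or.inr (Or.inr ⟨(S, g), rfl⟩))

end FermatAgent.ES
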