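import Fermat.Agent.ES.Local.Witness
import Mathlib.RingTheory.RootsOfUnity.Minpoly
import Mathlib.RingTheory.Polynomial.Cyclotomic.Roots

/-!
# Exact roots of functions with divisible orders in `ℓ`-adic discs

For `n` prime to `ℓ`, on the disc of a good point, a function whose orders are divisible by `n`
and which is congruent to a nonzero `n`th power is an `n`th power (`exists_disc_root`).
-/

set_option autoImplicit false

open UpperHalfPlane CongruenceSubgroup Polynomial
open scoped MatrixGroups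

noncomputable section

namespace FermatAgent.ES

variable {ℓ : ℕ}

/-- A root of `Y` congruent to `G`, given some root. -/
theorem exists_root_congr (P : CPlace ℓ) {n : ℕ} [NeZero n] (hn : n.Coprime ℓ)
    {Y G R0 : PowerSeries P.ring}
    (hYG : PowerSeries.map P.res Y = PowerSeries.map P.res G ^ n) (hR0 : R0 ^ n = Y) :
    ∃ R, R ^ n = Y ∧ PowerSeries.map P.res R = PowerSeries.map P.res G := by
  classical
  have hg := P.goodRoot hn
  set z : P.ring := ⟨zetaC n, hg.mem⟩ with hz
  have hprim : IsPrimitiveRoot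
      (PowerSeries.C (P.res z) : PowerSeries (IsLocalRing.ResidueField P.ring)) n :=
    (P.res_isPrimitiveRoot hn rfl).map_of_injective PowerSeries.C_injective
  have h := hprim.pow_sub_pow_eq_prod_sub_mul (PowerSeries.map P.res R0) (PowerSeries.map P.res G)
    (Nat.pos_of_ne_zero (NeZero.ne n))
  rw [← map_pow, hR0, hYG, sub_self] at h
  obtain ⟨w, hw, hw0⟩ := Finset.prod_eq_zero_iff.mp h.symm
  obtain ⟨i, -, hi⟩ := hprim.eq_pow_of_pow_eq_one
    ((Polynomial.mem_nthRootsFinset (Nat.pos_of_ne_zero (NeZero.ne n)) (1 : _)).mp hw)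
  have hz1 : z ^ n = 1 := Subtype.ext hg.prim.pow_eq_one
  refine ⟨PowerSeries.C (z ^ (n - 1)) ^ i * R0, ?_, ?_⟩
  · rw [mul_pow, hR0, ← map_pow, ← map_pow, ← pow_mul, ← pow_mul,
      show (n - 1) * (i * n) = n * ((n - 1) * i) by ring, pow_mul, hz1, one_pow, map_one, one_mul]
  · rw [map_mul, map_pow, PowerSeries.map_C, sub_eq_zero.mp hw0, ← hi, map_pow, map_pow,
      ← mul_assoc, ← pow_mul, ← pow_add,
      show (n - 1) * i + i = n * i by
        obtain ⟨k, hk⟩ : ∃ k, n = k + 1 := ⟨n - 1, by have := NeZero.one_le (n := n); omega⟩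
        subst hk; simp; ring, pow_mul, hprim.pow_eq_one, one_pow, one_mul]

variable {P : CPlace ℓ} {M m : ℕ} [NeZero M] (haux : AuxLevel M m)

include haux in
/-- **Local roots.** -/
theorem exists_disc_root (hM : M.Coprime ℓ) (hP : P.HasCDVRs) {n : ℕ} [NeZero n]
    (hn : n.Coprime ℓ) {τ0 : ℍ} (hg : GoodPoint haux P.ring τ0) (y g : BRing M P.ring)
    (hy0 : (y : ℍ → ℂ) ≠ 0) (hord : ∀ τ (j : ℕ), vanishOrd (y : ℍ → ℂ) τ = j → n ∣ j)
    (hcong : PowerSeries.map P.res (discHom haux τ0 (P.goodRoot hM) hg y) =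
      PowerSeries.map P.res (discHom haux τ0 (P.goodRoot hM) hg g) ^ n)
    (hgne : PowerSeries.map P.res (discHom haux τ0 (P.goodRoot hM) hg g) ≠ 0) :
    ∃ R : PowerSeries P.ring,
      R ^ n = discHom haux τ0 (P.goodRoot hM) hg y ∧
        PowerSeries.map P.res R =
          PowerSeries.map P.res (discHom haux τ0 (P.goodRoot hM) hg g) := by
  have hA := P.goodRoot hM
  obtain ⟨Sy, hSy, hyO⟩ := exists_finset_mem_BRing haux hA y.2
  obtain ⟨Sw, hSw, hwO⟩ := exists_finset_witness haux (P := P) hM y.2.1 hy0 hord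
  set S : Set ℂ := (↑Sy ∪ ↑Sw) ∪ ({zetaC M} ∪ fibVals haux τ0)
  obtain ⟨Rg, -, hRg⟩ := hP
  obtain ⟨hO, hsub⟩ := hRg S ((Sy.finite_toSet.union Sw.finite_toSet).union
    ((Set.finite_singleton _).union (finite_fibVals haux τ0)))
    (Set.union_subset (Set.union_subset hSy hSw)
      (Set.union_subset (by simpa using hA.mem) (fibVals_subset haux hg)))
  set O := Rg S
  have := hO.dvr
  have hA' : GoodRoot M O (zetaC M) := hO.goodRoot hA (hsub (Or.inr (Or.inl rfl)))
  have hg' : GoodPoint haux O τ0 :=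
    goodPoint_of_isCDVR haux hO hg fun x hx => hsub (Or.inr (Or.inr hx))
  set y1 : BRing M O := ⟨y, hyO O hA' fun x hx => hsub (Or.inl (Or.inl hx))⟩
  have hY : discHom haux τ0 (P.goodRoot hM) hg y =
      PowerSeries.map (Subring.inclusion hO.le) (discHom haux τ0 hA' hg' y1) :=
    discHom_mono haux τ0 hA' hg' hA hg hO.le y1
  have hne : PowerSeries.map (IsLocalRing.residue O) (discHom haux τ0 hA' hg' y1) ≠ 0 := by
    intro h0
    obtain ⟨i, hi⟩ := P.exists_abv_eq_one_of_map_res_ne
      (x := discHom haux τ0 (P.goodRoot hM) hg y) (by rw [hcong]; exact pow_ne_zero _ hgne)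
    have hc := congrArg (PowerSeries.coeff i) h0
    rw [PowerSeries.coeff_map, map_zero, IsLocalRing.residue_eq_zero_iff,
      hO.mem_maximalIdeal_iff] at hc
    rw [hY, PowerSeries.coeff_map] at hi
    exact hc.ne hi
  obtain ⟨R0, hR0⟩ := exists_root_of_witness hO hn hne fun ψ hψ h0 => by
    obtain ⟨τ, hτ⟩ := exists_point_of_const haux hA' (ψ.comp (discHom haux τ0 hA' hg'))
      fun a => by rw [RingHom.comp_apply, discHom_const haux τ0 hA' hg' a.2, hψ]
    obtain ⟨i, E, D, X, hE, hX, heq⟩ := hwO O hA' (fun x hx => hsub (Or.inl (Or.inr hx))) τ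
      ((hτ y1).symm.trans h0)
    exact ⟨i, _, discHom haux τ0 hA' hg' E, discHom haux τ0 hA' hg' X, (hτ E).symm ▸ hE,
      (hτ X).symm ▸ hX, by rw [← map_mul, show y1 * E = D ^ (n * i) * X from Subtype.ext heq,
        map_mul, map_pow]⟩
  exact exists_root_congr P hn hcong (hR0.trans hY.symm)

end FermatAgent.ES
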