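import Fermat.Agent.ES.Local.SmallFun
import Fermat.Agent.ES.Local.Root

/-!
# Approximate roots of integral modular functions which are powers modulo the maximal ideal

Newton iteration gives approximate roots up to powers of linear factors in `t`; these are removed
by looking at the discs over their zeros.
-/

set_option autoImplicit false

open UpperHalfPlane CongruenceSubgroup Polynomial
open scoped MatrixGroups

noncomputable section

namespace FermatAgent.ES

variable {ℓ : ℕ} (P : CPlace ℓ) {M m : ℕ} [NeZero M] (haux : AuxLevel M m) (hM : M.Coprime ℓ)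

include haux hM in
/-- Translation preserves having a unit coefficient at `∞`. -/
theorem unitCoeff_act {G : BRing M P.ring} (hG : P.UnitCoeff (infExp P G)) (γ : SL(2, ℤ)) :
    P.UnitCoeff (infExp P ⟨act γ G, act_mem_BRing G.2 γ⟩) := by
  by_contra hno
  have hlt := CPlace.serLT_of_not_unitCoeff (serIn_infExp P _) hno
  obtain ⟨k, hk⟩ := hG
  have h := Curve.Red.coeff_mem_maxBall P haux hM (act_mem_BRing G.2 γ) hlt γ⁻¹ k
  rw [lexp_act, mul_inv_cancel, CPlace.mem_maxBall] at h
  exact h.ne hk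

include haux hM in
/-- A function with a unit coefficient divides a polynomial in `t` with a unit coefficient. -/
theorem exists_poly_unitCoeff {O : Subring ℂ} (hO : O ≤ P.ring) (hA : GoodRoot M O (zetaC M))
    {f : ℍ → ℂ} (hf : f ∈ BRing M O) (hu : P.UnitCoeff (lexp M 1 f)) :
    ∃ (Y : BRing M O) (F : O[X]),
      (∀ τ, f τ * (Y : ℍ → ℂ) τ = (F.map O.subtype).eval (haupt haux.dvd τ)) ∧
        P.UnitCoeff (infExp P (evalT P haux hM (F.map (Subring.inclusion hO)))) := by
  classical
  set G : GalGrp M m → BRing M O := fun g => ⟨act (repG M m g) f, act_mem_BRing hf _⟩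
  have hG1 : (G 1 : ℍ → ℂ) = f := by
    have := act_eq_act_repG hf.1 (1 : Gamma m)
    rw [Subgroup.coe_one, act_one, QuotientGroup.mk_one] at this
    exact this.symm
  set Nm : BRing M O := ∏ g, G g
  have hinv : ∀ δ ∈ Gamma m, act δ (Nm : ℍ → ℂ) = (Nm : ℍ → ℂ) := by
    intro δ hδ
    rw [show (Nm : ℍ → ℂ) = ∏ g, act (repG M m g) f from
      (map_prod (BRing M O).subtype G Finset.univ), act_prod]
    refine Fintype.prod_equiv (Equiv.mulRight ((⟨δ, hδ⟩ : Gamma m) : GalGrp M m)) _ _ fun g => ?_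
    simp only [Equiv.coe_mulRight]
    obtain ⟨x, rfl⟩ := QuotientGroup.mk_surjective g
    rw [← QuotientGroup.mk_mul, ← act_eq_act_repG hf.1, ← act_eq_act_repG hf.1, ← act_mul]
    rfl
  obtain ⟨e, F, hF⟩ := exists_poly_of_mem haux hA (invariant_mem_polRing haux hA Nm.2 hinv)
  obtain ⟨hroot, -, -⟩ := hauptRoot_spec haux hA
  set tO : BRing M O := ⟨_, polRing_le_BRing haux hA (haupt_mem_polRing haux O)⟩
  set cu : BRing M O := tO * (tO - 1) * (tO - ⟨_, const_mem_BRing hroot⟩)
  set i := Subring.inclusion (BRing_mono (M := M) hO)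
  refine ⟨(∏ g ∈ Finset.univ.erase 1, G g) * cu ^ e, F, fun τ => ?_, ?_⟩
  · rw [← hF τ, show Nm = G 1 * ∏ g ∈ Finset.univ.erase 1, G g from
      (Finset.mul_prod_erase _ G (Finset.mem_univ 1)).symm]
    simp only [Subring.coe_mul, Pi.mul_apply, hG1, mul_assoc]
    rfl
  have hev : evalT P haux hM (F.map (Subring.inclusion hO)) = i Nm * i cu ^ e :=
    Subtype.ext (funext fun τ => by
      rw [evalT_apply, Polynomial.map_map, show P.ring.subtype.comp (Subring.inclusion hO) =
        O.subtype from RingHom.ext fun _ => rfl, ← hF τ]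
      rfl)
  rw [hev, map_mul, map_pow]
  refine CPlace.UnitCoeff.mul (serIn_infExp P _) ((serIn_infExp P _).pow e) ?_
    (CPlace.UnitCoeff.pow (serIn_infExp P _) ?_ e)
  · rw [map_prod i G Finset.univ, map_prod]
    refine Finset.prod_induction _ (fun x => SerIn P.ring x ∧ P.UnitCoeff x)
      (fun x y hx hy => ⟨hx.1.mul hy.1, CPlace.UnitCoeff.mul hx.1 hy.1 hx.2 hy.2⟩)
      ⟨SerIn.one, ⟨0, by simp⟩⟩ (fun g _ => ⟨serIn_infExp P _,
        unitCoeff_act P haux hM (G := ⟨f, BRing_mono hO hf⟩) hu _⟩) |>.2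
  · rw [show i cu = tSub P haux hM 0 * tSub P haux hM 1 * tSub P haux hM ⟨_, hO hroot⟩ from
      Subtype.ext (funext fun τ => by
        show haupt haux.dvd τ * (haupt haux.dvd τ - 1) * (haupt haux.dvd τ - hauptRoot haux) =
          (haupt haux.dvd τ - ((0 : P.ring) : ℂ)) * (haupt haux.dvd τ - ((1 : P.ring) : ℂ)) *
            (haupt haux.dvd τ - hauptRoot haux)
        simp), map_mul, map_mul]
    exact CPlace.UnitCoeff.mul ((serIn_infExp P _).mul (serIn_infExp P _))
      (serIn_infExp P _) (CPlace.UnitCoeff.mul (serIn_infExp P _) (serIn_infExp P _)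
        (unitCoeff_tSub P haux hM 0) (unitCoeff_tSub P haux hM 1))
      (unitCoeff_tSub P haux hM _)

include haux hM in
/-- A function with nonzero reduction divides, up to small terms, a product of good `t - b`. -/
theorem exists_norm_factor {c : ℝ} (hc : 0 < c) {G : BRing M P.ring}
    (hG : P.UnitCoeff (infExp P G)) :
    ∃ (G' : BRing M P.ring) (L : Multiset P.ring),
      G * G' - linProd P haux hM L ∈ smallIdeal P c hc.le ∧
        ∀ x ∈ L, GoodVal haux P.ring (x : ℂ) := by
  obtain ⟨Y, F, hF, hunit⟩ := exists_poly_unitCoeff P haux hM le_rfl (P.goodRoot hM) G.2 hG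
  obtain ⟨W, L, hW, hL⟩ := exists_good_factor P haux hM hc _ hunit
  refine ⟨Y * W, L, ?_, hL⟩
  rwa [← mul_assoc, show G * Y = evalT P haux hM (F.map (Subring.inclusion le_rfl)) from
    Subtype.ext (funext fun τ => by rw [evalT_apply, Polynomial.map_map]; exact hF τ)]

theorem smallIdeal_mono {b d : ℝ} (hb : 0 ≤ b) (hd : 0 ≤ d) (hbd : b ≤ d) :
    smallIdeal (M := M) P b hb ≤ smallIdeal P d hd := fun _ hf => hf.mono hbd

/-- **A Newton step.** If `H` is an `n`th root of `y Pl ^ (n e)` up to `d`, congruent to `G Pl ^ e`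
up to `ρ`, and `G G'` is `Pl` up to `ρ`, then a larger power of `Pl` admits such a root up to
`d ρ`. -/
theorem exists_newton_step {n : ℕ} [NeZero n] {v : P.ring}
    (hnv : (n : BRing M P.ring) * constB P v = 1) {d ρ : ℝ} (hd0 : 0 ≤ d) (hρ0 : 0 ≤ ρ)
    (hdρ : d ≤ ρ) {y G G' Pl H : BRing M P.ring} {e : ℕ}
    (hGG : G * G' - Pl ∈ smallIdeal P ρ hρ0) (hH : H - G * Pl ^ e ∈ smallIdeal P ρ hρ0)
    (hD : H ^ n - y * Pl ^ (n * e) ∈ smallIdeal P d hd0) :
    ∃ (H' : BRing M P.ring) (e' : ℕ), H' - G * Pl ^ e' ∈ smallIdeal P ρ hρ0 ∧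
      H' ^ n - y * Pl ^ (n * e') ∈ smallIdeal P (d * ρ) (mul_nonneg hd0 hρ0) := by
  set D := y * Pl ^ (n * e) - H ^ n with hDdef
  have hD' : D ∈ smallIdeal P d hd0 := by rw [hDdef, ← neg_sub, neg_mem_iff]; exact hD
  set k := n + e * (n - 1)
  set Δ := constB P v * D * (G * G' ^ n)
  have hΔ : Δ ∈ smallIdeal P d hd0 := Ideal.mul_mem_right _ _ (Ideal.mul_mem_left _ _ hD')
  set A := H * Pl ^ k
  refine ⟨A + Δ, e + k, ?_, ?_⟩
  · rw [show A + Δ - G * Pl ^ (e + k) = (H - G * Pl ^ e) * Pl ^ k + Δ by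
      simp only [A, pow_add]; ring]
    exact add_mem (Ideal.mul_mem_right _ _ hH) (smallIdeal_mono P hd0 hρ0 hdρ hΔ)
  obtain ⟨K, hK⟩ := sq_dvd_add_pow_sub_sub Δ A n
  obtain ⟨N, rfl⟩ : ∃ N, n = N + 1 := ⟨n - 1, by have := NeZero.one_le (n := n); omega⟩
  simp only [Nat.add_sub_cancel] at hK
  have hkk : k + k * N = N + 1 + (e + k) * N := by
    simp only [k, Nat.add_sub_cancel]; ring
  have e1 : (A + Δ) ^ (N + 1) - y * Pl ^ ((N + 1) * (e + k)) =
      Δ * Δ * K - D * ((Pl ^ (N + 1) - (G * G') ^ (N + 1)) * Pl ^ ((e + k) * N)) -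
        D * (G * G' ^ (N + 1) * ((G * Pl ^ (e + k)) ^ N - A ^ N)) := by
    have e2 : Pl ^ ((N + 1) * (e + k)) =
        Pl ^ ((N + 1) * e) * Pl ^ (N + 1) * Pl ^ ((e + k) * N) := by
      rw [← pow_add, ← pow_add]
      congr 1
      calc (N + 1) * (e + k) = (N + 1) * e + (k + k * N) := by ring
        _ = _ := by rw [hkk]; ring
    have e3 : A ^ (N + 1) = H ^ (N + 1) * Pl ^ (N + 1) * Pl ^ ((e + k) * N) := by
      rw [mul_pow, mul_assoc (H ^ (N + 1)), ← pow_mul, ← pow_add]
      congr 2
      rw [← hkk]; ring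
    have e4 : (G * Pl ^ (e + k)) ^ N = G ^ N * Pl ^ ((e + k) * N) := by
      rw [mul_pow, ← pow_mul]
    have e5 : Δ * ((N + 1 : ℕ) : BRing M P.ring) = D * (G * G' ^ (N + 1)) := by
      linear_combination (D * (G * G' ^ (N + 1))) * hnv
    rw [e2, e4, mul_pow G G']
    linear_combination hK + e3 + A ^ N * e5 +
      (Pl ^ (N + 1) * Pl ^ ((e + k) * N)) * hDdef
  rw [e1]
  refine sub_mem (sub_mem ?_ ?_) ?_
  · exact Ideal.mul_mem_right _ _ (smallIdeal_mul P hd0 hρ0 hΔ (smallIdeal_mono P hd0 hρ0 hdρ hΔ))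
  · refine smallIdeal_mul P hd0 hρ0 hD' (Ideal.mul_mem_right _ _ ?_)
    refine Ideal.mem_of_dvd _ (sub_dvd_pow_sub_pow Pl (G * G') _) ?_
    rw [← neg_sub, neg_mem_iff]
    exact hGG
  · refine smallIdeal_mul P hd0 hρ0 hD' (Ideal.mul_mem_left _ _ ?_)
    refine Ideal.mem_of_dvd _ (sub_dvd_pow_sub_pow _ A _) ?_
    rw [← neg_sub, neg_mem_iff, show A - G * Pl ^ (e + k) = (H - G * Pl ^ e) * Pl ^ k by
      simp only [A, pow_add]; ring]
    exact Ideal.mul_mem_right _ _ hH

include haux hM in
/-- **Newton iteration without division.** An `n`th root of `y` modulo the maximal ideal is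
improved to one modulo any `c < 1`, up to powers of a product of linear factors in `t` which is a
multiple of `G` modulo `c`. -/
theorem exists_newton {n : ℕ} [NeZero n] (hn : n.Coprime ℓ) {c : ℝ} (hc : 0 < c) (hc1 : c < 1)
    {y G G' : BRing M P.ring} {L : Multiset P.ring}
    (hyG : y - G ^ n ∈ maxSmall P)
    (hGG : G * G' - linProd P haux hM L ∈ smallIdeal P c hc.le) :
    ∃ (H : BRing M P.ring) (e : ℕ), H - G * linProd P haux hM L ^ e ∈ maxSmall P ∧
      H ^ n - y * linProd P haux hM L ^ (n * e) ∈ smallIdeal P c hc.le := by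
  set Pl := linProd P haux hM L
  obtain ⟨a, g, ha, hag⟩ := exists_eq_constB_mul_of_maxSmall P haux hM hyG
  set ρ := max (P.abv (a : ℂ)) c with hρ
  have hρ0 : 0 ≤ ρ := le_max_of_le_right hc.le
  have hρ1 : ρ < 1 := max_lt ha hc1
  have hcρ : c ≤ ρ := le_max_right _ _
  obtain ⟨v, hv⟩ := ((P.isUnit_ring_iff (n : P.ring)).mpr (by
    rw [show (((n : P.ring)) : ℂ) = (n : ℂ) by simp]
    exact P.abv_natCast_eq_one hn)).exists_right_inv
  have hnv : (n : BRing M P.ring) * constB P v = 1 := by
    rw [← map_natCast (constB P (M := M)), ← map_mul, hv, map_one]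
  have hmono := @smallIdeal_mono ℓ P M _
  suffices key : ∀ r : ℕ, ∃ (H : BRing M P.ring) (e : ℕ), H - G * Pl ^ e ∈ smallIdeal P ρ hρ0 ∧
      H ^ n - y * Pl ^ (n * e) ∈
        smallIdeal P (max c (ρ ^ (r + 1))) (le_max_of_le_left hc.le) by
    obtain ⟨r, hr⟩ := exists_pow_lt_of_lt_one hc hρ1
    obtain ⟨H, e, h1, h2⟩ := key r
    refine ⟨H, e, smallIdeal_le_maxSmall P hρ0 hρ1 h1, hmono _ _ ?_ h2⟩
    exact max_le le_rfl (le_trans (pow_le_pow_of_le_one hρ0 hρ1.le (Nat.le_succ r)) hr.le)
  intro r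
  induction r with
  | zero =>
    refine ⟨G, 0, by simp, ?_⟩
    rw [mul_zero, pow_zero, mul_one, ← neg_sub, neg_mem_iff, hag]
    refine hmono hρ0 _ (le_max_of_le_right (by simp)) ?_
    rw [mem_smallIdeal, map_mul, infExp_constB]
    exact CPlace.SerLE.C_mul (le_max_left _ _) (serIn_infExp P g)
  | succ r ih =>
    obtain ⟨H, e, hH, hD⟩ := ih
    have hd0 : 0 ≤ max c (ρ ^ (r + 1)) := le_max_of_le_left hc.le
    obtain ⟨H', e', h1, h2⟩ := exists_newton_step P hnv hd0 hρ0
      (max_le hcρ (pow_le_of_le_one hρ0 hρ1.le (Nat.succ_ne_zero r)))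
      (hmono hc.le hρ0 hcρ hGG) hH hD
    refine ⟨H', e', h1, hmono _ _ ?_ h2⟩
    rw [max_mul_of_nonneg _ _ hρ0, pow_succ ρ (r + 1)]
    exact max_le_max (mul_le_of_le_one_right hc.le hρ1.le) le_rfl

/-- Series over the valuation ring as Laurent series over `ℂ`. -/
def discLaurent : PowerSeries P.ring →+* LaurentSeries ℂ :=
  (HahnSeries.ofPowerSeries ℤ ℂ).comp (PowerSeries.map P.ring.subtype)

theorem coeff_discLaurent (s : PowerSeries P.ring) (i : ℕ) :
    (discLaurent P s).coeff (i : ℤ) = ((PowerSeries.coeff i s : P.ring) : ℂ) := by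
  rw [discLaurent, RingHom.comp_apply, HahnSeries.ofPowerSeries_apply_coeff, PowerSeries.coeff_map]
  rfl

theorem serIn_discLaurent (s : PowerSeries P.ring) : SerIn P.ring (discLaurent P s) := fun n => by
  rcases le_or_gt 0 n with hn | hn
  · lift n to ℕ using hn
    rw [coeff_discLaurent]
    exact (PowerSeries.coeff n s).2
  · rw [discLaurent, RingHom.comp_apply, HahnSeries.ofPowerSeries_apply,
      HahnSeries.embDomain_of_notMem_range]
    · exact P.ring.zero_mem
    · rintro ⟨k, hk⟩; simp at hk; omega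

include haux hM in
/-- A small function has disc series vanishing modulo the maximal ideal. -/
theorem map_res_discHom_of_maxSmall {τ0 : ℍ} (hg : GoodPoint haux P.ring τ0) {f : BRing M P.ring}
    (hf : f ∈ maxSmall P) :
    PowerSeries.map P.res (discHom haux τ0 (P.goodRoot hM) hg f) = 0 := by
  obtain ⟨a, g, ha, hag⟩ := exists_eq_constB_mul_of_maxSmall P haux hM hf
  subst hag
  rw [map_mul, map_mul, show constB P (M := M) a = ⟨_, const_mem_BRing a.2⟩ from rfl,
    discHom_const haux τ0 (P.goodRoot hM) hg a.2, PowerSeries.map_C,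
    show P.res ⟨(a : ℂ), a.2⟩ = 0 from P.res_eq_zero_iff.mpr ha, map_zero, zero_mul]

include haux hM in
theorem serLE_discHom {τ0 : ℍ} (hg : GoodPoint haux P.ring τ0) {c : ℝ} (hc : 0 ≤ c)
    {f : BRing M P.ring} (hf : f ∈ smallIdeal P c hc) :
    P.SerLE c (discLaurent P (discHom haux τ0 (P.goodRoot hM) hg f)) := by
  obtain ⟨a, g, ha, hag⟩ := exists_eq_constB_mul P haux hM hc hf
  subst hag
  rw [map_mul, map_mul, show constB P (M := M) a = ⟨_, const_mem_BRing a.2⟩ from rfl,
    discHom_const haux τ0 (P.goodRoot hM) hg a.2]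
  simp only [discLaurent, RingHom.comp_apply, PowerSeries.map_C, HahnSeries.ofPowerSeries_C]
  exact CPlace.SerLE.C_mul ha (serIn_discLaurent P _)

include haux hM in
/-- The disc series of `t - b` is `(t(τ₀) - b) + X`. -/
theorem constantCoeff_discHom_tSub {τ0 : ℍ} (hg : GoodPoint haux P.ring τ0) (b : P.ring) :
    discHom haux τ0 (P.goodRoot hM) hg (tSub P haux hM b) =
      PowerSeries.C (⟨_, hg.val.mem⟩ - b) + PowerSeries.X := by
  rw [tSub, map_sub, show constB P (M := M) b = ⟨_, const_mem_BRing b.2⟩ from rfl,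
    discHom_const haux τ0 (P.goodRoot hM) hg b.2,
    show tB P haux hM = ⟨_, polRing_le_BRing haux (P.goodRoot hM) (haupt_mem_polRing haux P.ring)⟩
      from rfl, discHom_haupt, map_sub]
  ring

include haux hM in
/-- At a point where `t` takes the value of an auxiliary linear factor, an approximate root times
that factor is small. -/
theorem abv_le_of_linear_factor (hP : P.HasCDVRs) {n : ℕ} [NeZero n] (hn : n.Coprime ℓ) {c : ℝ}
    (hc : 0 < c) {y G G' H : BRing M P.ring} {L0 L : Multiset P.ring} {b : P.ring}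
    (hy0 : (y : ℍ → ℂ) ≠ 0) (hord : ∀ τ (j : ℕ), vanishOrd (y : ℍ → ℂ) τ = j → n ∣ j)
    (hyG : y - G ^ n ∈ maxSmall P) (hGG : G * G' - linProd P haux hM L0 ∈ maxSmall P)
    (h1 : H - G * linProd P haux hM (b ::ₘ L) ∈ maxSmall P)
    (h2 : H ^ n - y * linProd P haux hM (b ::ₘ L) ^ n ∈ smallIdeal P c hc.le) {τ0 : ℍ}
    (hg0 : GoodPoint haux P.ring τ0) (hτ0 : haupt haux.dvd τ0 = b) :
    P.abv ((H : ℍ → ℂ) τ0) ≤ c := by
  classical
  have hA := P.goodRoot hM
  set Pl := linProd P haux hM L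
  have hPb : linProd P haux hM (b ::ₘ L) = tSub P haux hM b * Pl := by
    simp [linProd, Pl]
  rw [hPb] at h1 h2
  set ψ := discHom haux τ0 hA hg0
  have hz : ∀ {f}, f ∈ maxSmall P → PowerSeries.map P.res (ψ f) = 0 := fun hf =>
    map_res_discHom_of_maxSmall P haux hM hg0 hf
  have hlin : ∀ L' : Multiset P.ring,
      PowerSeries.map P.res (ψ (linProd P haux hM L')) ≠ 0 := by
    intro L'
    rw [linProd, map_multiset_prod, map_multiset_prod, Multiset.map_map, Multiset.map_map]
    refine Multiset.prod_ne_zero fun h0 => ?_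
    obtain ⟨x, -, hx⟩ := Multiset.mem_map.mp h0
    simp only [Function.comp_apply, ψ, constantCoeff_discHom_tSub P haux hM hg0] at hx
    have := congrArg (PowerSeries.coeff 1) hx
    simp at this
  have hGne : PowerSeries.map P.res (ψ G) ≠ 0 := fun h0 => by
    have h := hz hGG
    rw [map_sub, map_sub, map_mul, map_mul, h0, zero_mul, zero_sub, neg_eq_zero] at h
    exact hlin L0 h
  obtain ⟨R, hR, hRG⟩ := exists_disc_root haux hM hP hn hg0 y G hy0 hord
    (by
      have h := hz hyG
      rw [map_sub, map_sub, sub_eq_zero, map_pow, map_pow] at h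
      exact h) hGne
  set D := ψ H
  set S := ψ (tSub P haux hM b * Pl)
  have hDS : PowerSeries.map P.res D = PowerSeries.map P.res (R * S) := by
    have h := hz h1
    rw [map_sub, map_sub, sub_eq_zero, map_mul, map_mul] at h
    rw [map_mul, hRG]
    exact h
  set U := ∑ i ∈ Finset.range n, D ^ i * (R * S) ^ (n - 1 - i)
  have hU : P.UnitCoeff (discLaurent P U) := by
    obtain ⟨i, hi⟩ := P.exists_abv_eq_one_of_map_res_ne (x := U) (by
      simp only [U, map_sum, map_mul, map_pow, hDS]
      rw [Finset.sum_congr rfl (g := fun _ => PowerSeries.map P.res (R * S) ^ (n - 1))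
        (fun i hi => by
          rw [← map_mul, ← pow_add]
          congr 1
          have := Finset.mem_range.mp hi
          omega), Finset.sum_const, Finset.card_range, nsmul_eq_mul]
      refine mul_ne_zero ?_ (pow_ne_zero _ ?_)
      · rw [← map_natCast (PowerSeries.C (R := IsLocalRing.ResidueField P.ring)),
          Ne, map_eq_zero_iff _ PowerSeries.C_injective, ← map_natCast P.res,
          P.res_eq_zero_iff, show (((n : P.ring)) : ℂ) = (n : ℂ) by simp,
          P.abv_natCast_eq_one hn]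
        exact lt_irrefl 1
      · rw [map_mul, hRG]
        refine mul_ne_zero hGne ?_
        have := hlin (b ::ₘ L)
        rwa [hPb] at this)
    exact ⟨i, by rw [coeff_discLaurent]; exact hi⟩
  have hprod : P.SerLE c (discLaurent P (D - R * S) * discLaurent P U) := by
    rw [← map_mul, mul_comm, geom_sum₂_mul, mul_pow, hR]
    have h := serLE_discHom P haux hM hg0 hc.le h2
    rw [map_sub (discHom haux τ0 hA hg0), map_mul (discHom haux τ0 hA hg0),
      map_pow (discHom haux τ0 hA hg0), map_pow (discHom haux τ0 hA hg0)] at h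
    exact h
  have hle := CPlace.SerLE.of_mul_unitCoeff hc.le (serIn_discLaurent P _) hU hprod
    (P.serLE_one_iff.mpr (serIn_discLaurent P _)) (0 : ℕ)
  rw [coeff_discLaurent, PowerSeries.coeff_zero_eq_constantCoeff, map_sub, map_mul,
    show PowerSeries.constantCoeff S = 0 by
      simp only [S, ψ, map_mul, constantCoeff_discHom_tSub P haux hM hg0, map_add,
        PowerSeries.constantCoeff_C, PowerSeries.constantCoeff_X, add_zero]
      rw [show (⟨haupt haux.dvd τ0, hg0.val.mem⟩ : P.ring) = b from Subtype.ext hτ0, sub_self,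
        zero_mul], mul_zero, sub_zero, constantCoeff_discHom] at hle
  exact hle

include haux hM in
/-- **Removal of the auxiliary linear factors.** An approximate root `H` of `y Pl ^ n` congruent to
`G Pl` vanishes, up to `c`, where a factor of `Pl` does, so that factor can be divided out. -/
theorem exists_remove_factors (hP : P.HasCDVRs) {n : ℕ} [NeZero n] (hn : n.Coprime ℓ) {c : ℝ}
    (hc : 0 < c) (hc1 : c < 1) {y G G' : BRing M P.ring} {L0 : Multiset P.ring}
    (hy0 : (y : ℍ → ℂ) ≠ 0) (hord : ∀ τ (j : ℕ), vanishOrd (y : ℍ → ℂ) τ = j → n ∣ j)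
    (hyG : y - G ^ n ∈ maxSmall P) (hGG : G * G' - linProd P haux hM L0 ∈ maxSmall P)
    (L : Multiset P.ring) (hL : ∀ x ∈ L, GoodVal haux P.ring (x : ℂ)) :
    ∀ H : BRing M P.ring, H - G * linProd P haux hM L ∈ maxSmall P →
      H ^ n - y * linProd P haux hM L ^ n ∈ smallIdeal P c hc.le →
        ∃ h, h - G ∈ maxSmall P ∧ h ^ n - y ∈ smallIdeal P c hc.le := by
  classical
  have hA := P.goodRoot hM
  induction L using Multiset.induction_on with
  | empty =>
    intro H h1 h2
    simp only [linProd, Multiset.map_zero, Multiset.prod_zero, mul_one, one_pow] at h1 h2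
    exact ⟨H, h1, h2⟩
  | cons b L ih =>
    intro H h1 h2
    have hb := hL b (Multiset.mem_cons_self b L)
    set Pl := linProd P haux hM L
    obtain ⟨τ, hτ⟩ := hb.exists_point
    have hgp : GoodPoint haux P.ring τ :=
      GoodPoint.of_integrallyClosed haux hA (fun x => P.integrallyClosed x) (by rw [hτ]; exact hb)
    have hval : ∀ g, P.abv ((H : ℍ → ℂ) (orbPt M m τ g)) ≤ c := fun g => by
      have hτg : haupt haux.dvd (orbPt M m τ g) = b := by rw [haupt_orbPt haux, hτ]
      exact abv_le_of_linear_factor P haux hM hP hn hc hy0 hord hyG hGG h1 h2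
        (GoodPoint.of_integrallyClosed haux hA (fun x => P.integrallyClosed x)
          (by rw [hτg]; exact hb)) hτg
    obtain ⟨hmem, x1, hx1, hdec⟩ := exists_fibre_decomp haux hA hgp H.2
    set x : BRing M P.ring := ⟨x1, hx1⟩
    set E : BRing M P.ring := ∑ g : GalGrp M m,
      constB P ⟨_, hmem g⟩ * ⟨fibIdem haux τ g, fibIdem_mem haux hA hgp g⟩
    have hE : E ∈ smallIdeal P c hc.le := Ideal.sum_mem _ fun g _ =>
      Ideal.mul_mem_right _ _ fun k => by
        rw [infExp_constB, HahnSeries.C_apply]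
        rcases eq_or_ne k 0 with rfl | hk
        · rw [HahnSeries.coeff_single_same]; exact hval g
        · rw [HahnSeries.coeff_single_of_ne hk, map_zero]; exact hc.le
    have hH : H = tSub P haux hM b * x + E := by
      refine Subtype.ext ?_
      rw [hdec]
      show _ = (tSub P haux hM b : ℍ → ℂ) * x1 + (E : ℍ → ℂ)
      rw [show (E : ℍ → ℂ) = ∑ g : GalGrp M m,
          (fun _ => (H : ℍ → ℂ) (orbPt M m τ g)) * fibIdem haux τ g by
        simp only [E, AddSubmonoidClass.coe_finsetSum]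
        rfl]
      congr 2
      funext σ
      show haupt haux.dvd σ - haupt haux.dvd τ = haupt haux.dvd σ - (b : ℂ)
      rw [hτ]
    rw [show linProd P haux hM (b ::ₘ L) = tSub P haux hM b * Pl by simp [linProd, Pl]] at h1 h2
    refine ih (fun z hz => hL z (Multiset.mem_cons_of_mem hz)) x ?_ ?_
    · refine mem_maxSmall_of_mul P (unitCoeff_tSub P haux hM b) ?_
      have := sub_mem h1 (smallIdeal_le_maxSmall P hc.le hc1 hE)
      rwa [hH, show tSub P haux hM b * x + E - G * (tSub P haux hM b * Pl) - E =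
        tSub P haux hM b * (x - G * Pl) by ring] at this
    · refine mem_smallIdeal_of_mul P hc.le (p := tSub P haux hM b ^ n) ?_ ?_
      · rw [map_pow]
        exact CPlace.UnitCoeff.pow (serIn_infExp P _) (unitCoeff_tSub P haux hM b) n
      · have e : tSub P haux hM b ^ n * (x ^ n - y * Pl ^ n) =
            (H ^ n - y * (tSub P haux hM b * Pl) ^ n) - (H ^ n - (tSub P haux hM b * x) ^ n) := by
          ring
        rw [e]
        refine sub_mem h2 (Ideal.mem_of_dvd _ (sub_dvd_pow_sub_pow _ _ n) ?_)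
        rw [hH, add_sub_cancel_left]
        exact hE

include haux hM in
/-- **Approximate roots.** If `y`, all of whose orders are divisible by `n`, is the `n`th power of a
function `G` with a unit coefficient modulo the maximal ideal, it is one modulo any `c < 1`, with a
root congruent to `G`. -/
theorem exists_approx_root (hP : P.HasCDVRs) {n : ℕ} [NeZero n] (hn : n.Coprime ℓ) {c : ℝ}
    (hc : 0 < c) (hc1 : c < 1) {y G : BRing M P.ring}
    (hy0 : (y : ℍ → ℂ) ≠ 0) (hord : ∀ τ (j : ℕ), vanishOrd (y : ℍ → ℂ) τ = j → n ∣ j)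
    (hyG : y - G ^ n ∈ maxSmall P) (hG : P.UnitCoeff (infExp P G)) :
    ∃ h, h - G ∈ maxSmall P ∧ h ^ n - y ∈ smallIdeal P c hc.le := by
  obtain ⟨G', L, hGG, hL⟩ := exists_norm_factor P haux hM hc hG
  obtain ⟨H, e, h1, h2⟩ := exists_newton P haux hM hn hc hc1 hyG hGG
  have hpow : linProd P haux hM (e • L) = linProd P haux hM L ^ e := by
    rw [linProd, Multiset.map_nsmul, Multiset.prod_nsmul]
    rfl
  refine exists_remove_factors P haux hM hP hn hc hc1 hy0 hord hyG
    (smallIdeal_le_maxSmall P hc.le hc1 hGG) (e • L) ?_ H ?_ ?_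
  · exact fun x hx => hL x (Multiset.mem_of_mem_nsmul hx)
  · rw [hpow]; exact h1
  · rw [hpow, ← pow_mul, mul_comm e]; exact h2

end FermatAgent.ES
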