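import Fermat.Agent.ES.Coeff.Place
import Mathlib.RingTheory.LaurentSeries

/-!
# Laurent series with small coefficients

`SerLE c`, `SerLT` and `UnitCoeff` say that all coefficients are at most `c`, all lie in the
maximal ideal, or some one is a unit. Series with a unit coefficient are closed under products,
and cancelling one preserves smallness (Gauss's lemma).
-/

set_option autoImplicit false

open HahnSeries

noncomputable section

namespace FermatAgent.ES

namespace CPlace

variable {ℓ : ℕ} (P : CPlace ℓ)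

/-- All coefficients are at most `c`. -/
def SerLE (c : ℝ) (s : LaurentSeries ℂ) : Prop := ∀ n, P.abv (s.coeff n) ≤ c

/-- All coefficients are in the maximal ideal. -/
def SerLT (s : LaurentSeries ℂ) : Prop := ∀ n, P.abv (s.coeff n) < 1

/-- Some coefficient is a unit. -/
def UnitCoeff (s : LaurentSeries ℂ) : Prop := ∃ n, P.abv (s.coeff n) = 1

/-- Bounded by `1` means integral. -/
theorem serLE_one_iff {s : LaurentSeries ℂ} : P.SerLE 1 s ↔ SerIn P.ring s := Iff.rfl

variable {P} {c d : ℝ} {s t : LaurentSeries ℂ}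

/-- A bound may be increased. -/
theorem SerLE.mono (h : P.SerLE c s) (hcd : c ≤ d) : P.SerLE d s := fun n => (h n).trans hcd

/-- Zero satisfies every bound. -/
theorem SerLE.zero (hc : 0 ≤ c) : P.SerLE c 0 := fun n => by simpa using hc

/-- Sums keep a bound. -/
theorem SerLE.add (hs : P.SerLE c s) (ht : P.SerLE c t) : P.SerLE c (s + t) := fun n => by
  rw [coeff_add]; exact P.add_le (hs n) (ht n)

/-- Negation keeps a bound. -/
theorem SerLE.neg (hs : P.SerLE c s) : P.SerLE c (-s) := fun n => by
  rw [coeff_neg, AbsoluteValue.map_neg]; exact hs n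

/-- Differences keep a bound. -/
theorem SerLE.sub (hs : P.SerLE c s) (ht : P.SerLE c t) : P.SerLE c (s - t) := by
  rw [sub_eq_add_neg]; exact hs.add ht.neg

/-- Bounds multiply. -/
theorem SerLE.mul (hc : 0 ≤ c) (hd : 0 ≤ d) (hs : P.SerLE c s) (ht : P.SerLE d t) :
    P.SerLE (c * d) (s * t) := fun n => by
  rw [HahnSeries.coeff_mul]
  exact Finset.sum_induction _ (fun y => P.abv y ≤ c * d) (fun _ _ => P.add_le)
    (by simpa using mul_nonneg hc hd) fun x _ => by
      rw [map_mul]; exact mul_le_mul (hs _) (ht _) (P.abv.nonneg _) hc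

/-- Bounds of powers. -/
theorem SerLE.pow (hc : 0 ≤ c) (hs : P.SerLE c s) (n : ℕ) : P.SerLE (c ^ n) (s ^ n) := by
  induction n with
  | zero => simpa [serLE_one_iff] using SerIn.one (A := P.ring)
  | succ k ih => rw [pow_succ, pow_succ]; exact ih.mul (pow_nonneg hc k) hc hs

/-- An integral factor on the right keeps a bound. -/
theorem SerLE.mul_serIn (hc : 0 ≤ c) (hs : P.SerLE c s) (ht : SerIn P.ring t) :
    P.SerLE c (s * t) := by
  simpa using hs.mul hc zero_le_one (P.serLE_one_iff.mpr ht)

/-- An integral factor on the left keeps a bound. -/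
theorem SerLE.serIn_mul (hc : 0 ≤ c) (hs : SerIn P.ring s) (ht : P.SerLE c t) :
    P.SerLE c (s * t) := by
  rw [mul_comm]; exact ht.mul_serIn hc hs

/-- A bound `≤ 1` gives integrality. -/
theorem SerLE.serIn (hs : P.SerLE c s) (hc : c ≤ 1) : SerIn P.ring s := fun n => (hs n).trans hc

/-- A constant of absolute value `≤ c` times an integral series is bounded by `c`. -/
theorem SerLE.C_mul {a : ℂ} (ha : P.abv a ≤ c) (hs : SerIn P.ring s) :
    P.SerLE c (HahnSeries.C a * s) := fun n => by
  rw [C_apply, coeff_single_mul, sub_zero, map_mul]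
  calc P.abv a * P.abv (s.coeff n) ≤ c * 1 :=
        mul_le_mul ha (hs n) (P.abv.nonneg _) ((P.abv.nonneg a).trans ha)
    _ = c := mul_one c

/-- Finite sums keep a bound. -/
theorem SerLE.sum {ι : Type*} (hc : 0 ≤ c) (S : Finset ι) {f : ι → LaurentSeries ℂ}
    (h : ∀ i ∈ S, P.SerLE c (f i)) : P.SerLE c (∑ i ∈ S, f i) :=
  Finset.sum_induction _ _ (fun _ _ => SerLE.add) (SerLE.zero hc) h

/-- Powers of close integral series are as close. -/
theorem SerLE.pow_sub_pow (hc : 0 ≤ c) (hs : SerIn P.ring s) (ht : SerIn P.ring t)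
    (h : P.SerLE c (s - t)) (n : ℕ) : P.SerLE c (s ^ n - t ^ n) := by
  induction n with
  | zero => simpa using SerLE.zero hc
  | succ n ih =>
    rw [show s ^ (n + 1) - t ^ (n + 1) = (s ^ n - t ^ n) * s + t ^ n * (s - t) by ring]
    exact (ih.mul_serIn hc hs).add (SerLE.serIn_mul hc (ht.pow n) h)

/-- An integral multiple of a small series is small. -/
theorem SerLT.mul_serIn {s t : LaurentSeries ℂ} (hs : P.SerLT s) (ht : SerIn P.ring t) :
    P.SerLT (s * t) := fun n => by
  rw [HahnSeries.coeff_mul]
  refine Finset.sum_induction _ (fun y => P.abv y < 1) (fun _ _ => P.add_lt) (by simp) fun x _ => ?_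
  rw [map_mul]
  exact (mul_le_of_le_one_right (P.abv.nonneg _) (ht _)).trans_lt (hs _)

/-- Sums of small series are small. -/
theorem SerLT.add {s t : LaurentSeries ℂ} (hs : P.SerLT s) (ht : P.SerLT t) :
    P.SerLT (s + t) := fun n => by rw [HahnSeries.coeff_add]; exact P.add_lt (hs n) (ht n)

/-- The negative of a small series is small. -/
theorem SerLT.neg {s : LaurentSeries ℂ} (hs : P.SerLT s) : P.SerLT (-s) := fun n => by
  rw [HahnSeries.coeff_neg, AbsoluteValue.map_neg]; exact hs n

/-- Differences of small series are small. -/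
theorem SerLT.sub {s t : LaurentSeries ℂ} (hs : P.SerLT s) (ht : P.SerLT t) :
    P.SerLT (s - t) := by
  rw [sub_eq_add_neg]; exact hs.add ht.neg

/-- A small series has no unit coefficient. -/
theorem SerLT.not_unitCoeff {s : LaurentSeries ℂ} (hs : P.SerLT s) : ¬ P.UnitCoeff s :=
  fun ⟨n, hn⟩ => (hs n).ne hn

/-- Powers of congruent integral series are congruent. -/
theorem SerLT.pow_sub_pow {s t : LaurentSeries ℂ} (h : P.SerLT (s - t))
    (hs : SerIn P.ring s) (ht : SerIn P.ring t) (n : ℕ) : P.SerLT (s ^ n - t ^ n) := by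
  induction n with
  | zero => intro k; simp
  | succ n ih =>
    rw [show s ^ (n + 1) - t ^ (n + 1) = (s ^ n - t ^ n) * s + (s - t) * t ^ n by ring]
    exact (ih.mul_serIn hs).add (h.mul_serIn (ht.pow n))

theorem exists_bound_below {N : ℤ} (hs : ∀ n < N, P.abv (s.coeff n) < 1) :
    ∃ ρ, 0 ≤ ρ ∧ ρ < 1 ∧ ∀ n < N, P.abv (s.coeff n) ≤ ρ := by
  classical
  set T : Finset ℝ := insert 0 ((Finset.Ico s.order N).image fun n => P.abv (s.coeff n)) with hT
  have h0 : (0 : ℝ) ∈ T := Finset.mem_insert_self _ _
  have hne : T.Nonempty := ⟨0, h0⟩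
  refine ⟨T.max' hne, Finset.le_max' _ _ h0, ?_, fun n hn => ?_⟩
  · refine (Finset.max'_lt_iff T hne).mpr fun y hy => ?_
    rcases Finset.mem_insert.mp hy with rfl | hy
    · exact zero_lt_one
    · obtain ⟨n, hn, rfl⟩ := Finset.mem_image.mp hy
      exact hs n (Finset.mem_Ico.mp hn).2
  · rcases lt_or_ge n s.order with h | h
    · rw [coeff_eq_zero_of_lt_order h, map_zero]
      exact Finset.le_max' _ _ h0
    · exact Finset.le_max' T _ (Finset.mem_insert_of_mem
        (Finset.mem_image_of_mem (fun n => P.abv (s.coeff n)) (Finset.mem_Ico.mpr ⟨h, hn⟩)))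

/-- An integral series without unit coefficient is small. -/
theorem serLT_of_not_unitCoeff (hs : SerIn P.ring s) (h : ¬ P.UnitCoeff s) : P.SerLT s :=
  fun n => lt_of_le_of_ne (hs n) fun e => h ⟨n, e⟩

/-- The first unit coefficient. -/
theorem UnitCoeff.exists_first (hs : SerIn P.ring s) (h : P.UnitCoeff s) :
    ∃ i, P.abv (s.coeff i) = 1 ∧ ∀ n < i, P.abv (s.coeff n) < 1 := by
  classical
  obtain ⟨n0, hn0⟩ := h
  have hmem : ∀ n, P.abv (s.coeff n) = 1 → s.order ≤ n := fun n hn =>
    order_le_of_coeff_ne_zero fun h0 => by rw [h0, map_zero] at hn; exact zero_ne_one hn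
  obtain ⟨i, hi, hmin⟩ :=
    Int.exists_least_of_bdd (P := fun n => P.abv (s.coeff n) = 1) ⟨s.order, hmem⟩ ⟨n0, hn0⟩
  exact ⟨i, hi, fun n hn => lt_of_le_of_ne (hs n) fun e => (hmin n e).not_gt hn⟩

/-- **Gauss's lemma.** -/
theorem SerLE.of_mul_unitCoeff (hc : 0 ≤ c) (ht : SerIn P.ring t) (hu : P.UnitCoeff t)
    (h : P.SerLE c (s * t)) (hs : P.SerLE d s) : P.SerLE c s := by
  classical
  obtain ⟨i, hi, hlt⟩ := UnitCoeff.exists_first ht hu
  obtain ⟨ρ, hρ0, hρ1, hρ⟩ := exists_bound_below (s := t) hlt
  have hd : 0 ≤ d := (P.abv.nonneg _).trans (hs 0)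
  suffices key : ∀ k : ℕ, P.SerLE (max c (ρ ^ k * d)) s by
    intro n
    refine ge_of_tendsto' (x := Filter.atTop (α := ℕ)) ?_ fun k => key k n
    have h1 := (tendsto_pow_atTop_nhds_zero_of_lt_one hρ0 hρ1).mul_const d
    rw [zero_mul] at h1
    simpa [max_eq_left hc] using (tendsto_const_nhds (x := c)).max h1
  intro k
  induction k with
  | zero => exact hs.mono (by simp)
  | succ k ih =>
    set B := max c (ρ ^ (k + 1) * d)
    have hB : 0 ≤ B := le_max_of_le_left hc
    suffices H : ∀ N : ℕ, ∀ n < s.order + N, P.abv (s.coeff n) ≤ B from fun n =>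
      H ((n - s.order).toNat + 1) n (by omega)
    intro N
    induction N with
    | zero =>
      intro n hn
      rw [coeff_eq_zero_of_lt_order (by simpa using hn), map_zero]
      exact hB
    | succ N ihN =>
      intro n hn
      rcases lt_or_eq_of_le (show n ≤ s.order + N by push_cast at hn; omega) with hlt | heq
      · exact ihN n hlt
      have hsum := h (n + i)
      rw [HahnSeries.coeff_mul] at hsum
      rcases eq_or_ne (s.coeff n) 0 with h0 | h0
      · rw [h0, map_zero]; exact hB
      have hmem : (n, i) ∈ Finset.antidiagonal s.isPWO_support t.isPWO_support (n + i) := by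
        rw [Finset.mem_antidiagonal]
        exact ⟨h0, fun e => by
          have : P.abv (t.coeff i) = 0 := by rw [e, map_zero]
          rw [hi] at this; exact one_ne_zero this, rfl⟩
      rw [← Finset.add_sum_erase _ _ hmem] at hsum
      set R := ∑ x ∈ (Finset.antidiagonal s.isPWO_support t.isPWO_support (n + i)).erase (n, i),
        s.coeff x.1 * t.coeff x.2
      have hR : P.abv R ≤ B := by
        refine Finset.sum_induction _ (fun y => P.abv y ≤ B) (fun _ _ => P.add_le)
          (by simpa using hB) fun x hx => ?_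
        obtain ⟨hne, hx⟩ := Finset.mem_erase.mp hx
        rw [Finset.mem_antidiagonal] at hx
        rw [map_mul]
        rcases lt_trichotomy x.2 i with h2 | h2 | h2
        · calc P.abv (s.coeff x.1) * P.abv (t.coeff x.2) ≤ max c (ρ ^ k * d) * ρ :=
                mul_le_mul (ih _) (hρ _ h2) (P.abv.nonneg _) (le_max_of_le_left hc)
            _ ≤ B := by
              rw [max_mul_of_nonneg _ _ hρ0]
              show _ ≤ max c (ρ ^ (k + 1) * d)
              rw [pow_succ]
              exact max_le_max (mul_le_of_le_one_right hc hρ1.le) (le_of_eq (by ring))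
        · exact absurd (Prod.ext (by omega) h2) hne
        · calc P.abv (s.coeff x.1) * P.abv (t.coeff x.2) ≤ B * 1 :=
                mul_le_mul (ihN _ (by omega)) (ht _) (P.abv.nonneg _) hB
            _ = B := mul_one B
      have e : s.coeff n * t.coeff i = (s.coeff n * t.coeff i + R) + -R := by ring
      have h1 : P.abv (s.coeff n * t.coeff i) ≤ B := by
        rw [e]
        exact P.add_le (hsum.trans (le_max_left _ _)) (by rwa [AbsoluteValue.map_neg])
      rwa [map_mul, hi, mul_one] at h1

/-- A series congruent to one with a unit coefficient has a unit coefficient. -/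
theorem UnitCoeff.of_serLE_sub (hs : P.UnitCoeff s) (h : P.SerLT (s - t))
    (ht : SerIn P.ring t) : P.UnitCoeff t := by
  obtain ⟨n, hn⟩ := hs
  refine ⟨n, le_antisymm (ht n) ?_⟩
  by_contra hlt
  push Not at hlt
  have h1 := P.add_lt (h n) hlt
  rw [coeff_sub, sub_add_cancel, hn] at h1
  exact lt_irrefl _ h1

/-- A product of integral series with unit coefficients has a unit coefficient. -/
theorem UnitCoeff.mul (hs : SerIn P.ring s) (ht : SerIn P.ring t) (us : P.UnitCoeff s)
    (ut : P.UnitCoeff t) : P.UnitCoeff (s * t) := by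
  by_contra hno
  obtain ⟨i, hi, hilt⟩ := UnitCoeff.exists_first hs us
  obtain ⟨j, hj, hjlt⟩ := UnitCoeff.exists_first ht ut
  have hst := serLT_of_not_unitCoeff (hs.mul ht) hno (i + j)
  rw [HahnSeries.coeff_mul] at hst
  have hmem : (i, j) ∈ Finset.antidiagonal s.isPWO_support t.isPWO_support (i + j) := by
    rw [Finset.mem_antidiagonal]
    refine ⟨fun e => ?_, fun e => ?_, rfl⟩
    · rw [e, map_zero] at hi; exact zero_ne_one hi
    · rw [e, map_zero] at hj; exact zero_ne_one hj
  rw [← Finset.add_sum_erase _ _ hmem] at hst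
  set R := ∑ x ∈ (Finset.antidiagonal s.isPWO_support t.isPWO_support (i + j)).erase (i, j),
    s.coeff x.1 * t.coeff x.2
  have hR : P.abv R < 1 := by
    refine Finset.sum_induction _ (fun y => P.abv y < 1) (fun _ _ => P.add_lt) (by simp)
      fun x hx => ?_
    obtain ⟨hne, hx⟩ := Finset.mem_erase.mp hx
    rw [Finset.mem_antidiagonal] at hx
    rw [map_mul]
    rcases lt_trichotomy x.1 i with h1 | h1 | h1
    · exact (mul_le_of_le_one_right (P.abv.nonneg _) (ht _)).trans_lt (hilt _ h1)
    · exact absurd (Prod.ext h1 (by omega)) hne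
    · exact (mul_le_of_le_one_left (P.abv.nonneg _) (hs _)).trans_lt (hjlt _ (by omega))
  have e : s.coeff i * t.coeff j = (s.coeff i * t.coeff j + R) + -R := by ring
  have h1 : P.abv (s.coeff i * t.coeff j) < 1 := by
    rw [e]
    exact P.add_lt hst (by rwa [AbsoluteValue.map_neg])
  rw [map_mul, hi, hj, one_mul] at h1
  exact lt_irrefl _ h1

/-- Powers of series with a unit coefficient have one. -/
theorem UnitCoeff.pow (hs : SerIn P.ring s) (us : P.UnitCoeff s) (n : ℕ) :
    P.UnitCoeff (s ^ n) := by
  induction n with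
  | zero => exact ⟨0, by simp⟩
  | succ n ih => rw [pow_succ]; exact UnitCoeff.mul (hs.pow n) hs ih us

end CPlace

end FermatAgent.ES
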