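import Mathlib.RingTheory.PowerSeries.Trunc
import Mathlib.RingTheory.RootsOfUnity.PrimitiveRoots
import Mathlib.RingTheory.PowerSeries.Order
import Mathlib.NumberTheory.Multiplicity
import Mathlib.Tactic.LinearCombination

/-!
# Roots of power series

A power series with constant term `1` has an `n`th root when `n` is invertible.
-/

set_option autoImplicit false

open Polynomial

noncomputable section

namespace FermatAgent.ES

variable {R : Type*} [CommRing R]

/-- Partial roots of a series with constant term `1`. -/
def partRoot (u : PowerSeries R) (n : ℕ) (v : R) : ℕ → PowerSeries R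
  | 0 => 1
  | r + 1 => partRoot u n v r +
      PowerSeries.C (v * PowerSeries.coeff r (u - partRoot u n v r ^ n)) * PowerSeries.X ^ r

theorem partRoot_spec {u : PowerSeries R} (hu : PowerSeries.constantCoeff u = 1) {n : ℕ} {v : R}
    (hv : (n : R) * v = 1) (r : ℕ) :
    PowerSeries.constantCoeff (partRoot u n v r) = 1 ∧
      PowerSeries.X ^ r ∣ u - partRoot u n v r ^ n := by
  induction r with
  | zero => exact ⟨map_one _, by simp⟩
  | succ r ih =>
    obtain ⟨h1, ⟨D, hD⟩⟩ := ih
    set Q := partRoot u n v r
    have hc : PowerSeries.coeff r (u - Q ^ n) = PowerSeries.constantCoeff D := by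
      rw [hD, PowerSeries.coeff_X_pow_mul', if_pos le_rfl, Nat.sub_self,
        PowerSeries.coeff_zero_eq_constantCoeff]
    rcases Nat.eq_zero_or_pos r with rfl | hr
    · have h0 : PowerSeries.constantCoeff D = 0 := by
        rw [← hc, PowerSeries.coeff_zero_eq_constantCoeff, map_sub, map_pow, h1, hu, one_pow,
          sub_self]
      have e : partRoot u n v 1 = Q := by
        rw [partRoot, hc, h0, mul_zero, map_zero, zero_mul, add_zero]
      rw [e]
      refine ⟨h1, ?_⟩
      rw [hD, pow_zero, one_mul, pow_one, PowerSeries.X_dvd_iff]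
      exact h0
    refine ⟨by rw [partRoot, map_add, map_mul, map_pow, PowerSeries.constantCoeff_X,
      zero_pow hr.ne', mul_zero, add_zero, h1], ?_⟩
    rw [partRoot, hc]
    set c := PowerSeries.constantCoeff D
    obtain ⟨k, hk⟩ := sq_dvd_add_pow_sub_sub (PowerSeries.C (v * c) * PowerSeries.X ^ r) Q n
    have hQ : PowerSeries.X ∣ D - (n : PowerSeries R) * Q ^ (n - 1) * PowerSeries.C (v * c) := by
      rw [PowerSeries.X_dvd_iff, map_sub, map_mul, map_mul, map_pow, h1, one_pow, mul_one,
        map_natCast, PowerSeries.constantCoeff_C, ← mul_assoc, hv, one_mul, sub_self]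
    obtain ⟨E, hE⟩ := hQ
    refine ⟨E - PowerSeries.C (v * c) ^ 2 * PowerSeries.X ^ (r - 1) * k, ?_⟩
    have e : PowerSeries.X ^ r * PowerSeries.X ^ r =
        (PowerSeries.X : PowerSeries R) ^ (r + 1) * PowerSeries.X ^ (r - 1) := by
      rw [← pow_add, ← pow_add]
      congr 1
      omega
    linear_combination hD - hk + (PowerSeries.X : PowerSeries R) ^ r * hE -
      PowerSeries.C (v * c) ^ 2 * k * e

/-- A series with constant term `1` has an `n`-th root when `n` is invertible. -/
theorem exists_series_root {u : PowerSeries R} (hu : PowerSeries.constantCoeff u = 1) {n : ℕ}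
    {v : R} (hv : (n : R) * v = 1) : ∃ w : PowerSeries R, w ^ n = u := by
  set Q := partRoot u n v
  have hstab : ∀ r s i, i < r → r ≤ s → PowerSeries.coeff i (Q s) = PowerSeries.coeff i (Q r) := by
    intro r s i hi hrs
    induction s, hrs using Nat.le_induction with
    | base => rfl
    | succ s hs ih =>
      show PowerSeries.coeff i (partRoot u n v (s + 1)) = _
      rw [partRoot, map_add, PowerSeries.coeff_C_mul_X_pow, if_neg (by omega), add_zero]
      exact ih
  refine ⟨PowerSeries.mk fun i => PowerSeries.coeff i (Q (i + 1)), PowerSeries.ext fun r => ?_⟩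
  have h1 : PowerSeries.X ^ (r + 1) ∣
      (PowerSeries.mk fun i => PowerSeries.coeff i (Q (i + 1))) - Q (r + 1) := by
    rw [PowerSeries.X_pow_dvd_iff]
    intro i hi
    rw [map_sub, PowerSeries.coeff_mk, hstab (i + 1) (r + 1) i (Nat.lt_succ_self i) hi, sub_self]
  have h2 := dvd_trans h1 (sub_dvd_pow_sub_pow _ (Q (r + 1)) n)
  have h3 := dvd_sub h2 (partRoot_spec hu hv (r + 1)).2
  rw [PowerSeries.X_pow_dvd_iff] at h3
  have h4 := h3 r (Nat.lt_succ_self r)
  rw [sub_sub_sub_cancel_right, map_sub, sub_eq_zero] at h4
  exact h4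

end FermatAgent.ES
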