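import Fermat.Agent.BAD.PSFactor
import Fermat.Agent.Curve.Red.QExpansion
import Fermat.Agent.ES.Local.FinGen
import Fermat.Agent.ES.Local.SeriesRoot
import Fermat.Agent.ES.Ring.Points
import Mathlib.Analysis.Complex.Polynomial.Basic

/-!
# Witnesses of divisible zeros and roots of series

The zeros of a function with orders divisible by `n` are witnessed over one finitely generated
ring; for `n` prime to `ℓ` a series with nonzero reduction whose zeros are so witnessed at every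
point is an `n`-th power.
-/

set_option autoImplicit false

open UpperHalfPlane CongruenceSubgroup Polynomial
open scoped MatrixGroups

noncomputable section

namespace FermatAgent.ES

variable {M m : ℕ} [NeZero M] (haux : AuxLevel M m) {ℓ : ℕ} {P : CPlace ℓ}

include haux in
/-- At every point an integral multiple of a function with orders divisible by `n` is a unit times a
power of exponent divisible by `n` of an integral function. -/
theorem exists_witness_at (hM : M.Coprime ℓ) {n : ℕ} {y : ℍ → ℂ}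
    (hy : y ∈ BSub M) (hy0 : y ≠ 0) (hord : ∀ τ (j : ℕ), vanishOrd y τ = j → n ∣ j) (p : ℍ) :
    ∃ (i : ℕ) (E D X : ℍ → ℂ), E ∈ BRing M P.ring ∧ D ∈ BRing M P.ring ∧
      X ∈ BRing M P.ring ∧ E p ≠ 0 ∧ X p ≠ 0 ∧ y * E = D ^ (n * i) * X := by
  have hscale : ∀ {f : ℍ → ℂ}, f ∈ BSub M →
      ∃ c : ℂ, c ≠ 0 ∧ c ∈ P.ring ∧ (fun _ => c) * f ∈ BRing M P.ring := fun {f} hf => by
    obtain ⟨c, hc, hc0, h⟩ := (Curve.Red.placeDatum P M hM).exists_const_mul_mem haux
      (f := f) ⟨hf, fun _ _ => trivial⟩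
    exact ⟨c, hc0, hc, h⟩
  obtain ⟨j, e, x, he, hx, he0, hx0, heq, hj⟩ := exists_local_form haux hy hy0 p
  obtain ⟨i, rfl⟩ := hord p j hj
  obtain ⟨a, ha, haP, hae⟩ := hscale (pow_mem he (n * i))
  obtain ⟨b, hb, hbP, hbx⟩ := hscale hx
  obtain ⟨c, hc, hcP, hcπ⟩ := hscale (f := hauptSub haux (haupt haux.dvd p))
    (sub_mem (polFun_mem_BSub haux 1 (one_le haux)) ((BSub M).algebraMap_mem _))
  refine ⟨i, (fun _ => c ^ (n * i) * b) * ((fun _ => a) * e ^ (n * i)), _,
    (fun _ => a) * ((fun _ => b) * x),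
    mul_mem (const_mem_BRing (P.ring.mul_mem (P.ring.pow_mem hcP _) hbP)) hae, hcπ,
    mul_mem (const_mem_BRing haP) hbx, ?_, ?_, funext fun τ => ?_⟩
  · simp [hc, hb, ha, he0]
  · simp [ha, hb, hx0]
  · have h := congrFun heq τ
    simp only [Pi.mul_apply, Pi.pow_apply, mul_pow] at h ⊢
    linear_combination (c ^ (n * i) * b * a) * h

include haux in
/-- The witnesses at all zeros are defined over any good ring containing a fixed finite set, the
zeros lying over finitely many values of `t`. -/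
theorem exists_finset_witness (hM : M.Coprime ℓ) {n : ℕ} {y : ℍ → ℂ}
    (hy : y ∈ BSub M) (hy0 : y ≠ 0) (hord : ∀ τ (j : ℕ), vanishOrd y τ = j → n ∣ j) :
    ∃ S : Finset ℂ, (S : Set ℂ) ⊆ P.ring ∧ ∀ O : Subring ℂ, GoodRoot M O (zetaC M) →
      (S : Set ℂ) ⊆ O → ∀ τ, y τ = 0 → ∃ (i : ℕ) (E D X : BRing M O),
        (E : ℍ → ℂ) τ ≠ 0 ∧ (X : ℍ → ℂ) τ ≠ 0 ∧
          y * (E : ℍ → ℂ) = (D : ℍ → ℂ) ^ (n * i) * (X : ℍ → ℂ) := by
  classical
  obtain ⟨V, hV⟩ := exists_zero_values haux hy hy0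
  have hA := P.goodRoot hM
  have hwit := exists_witness_at haux (P := P) hM hy hy0 hord
  choose i E D X hE hD hX hEp hXp heq using hwit
  choose SE hSE hSEO using fun p => exists_finset_mem_BRing haux hA (hE p)
  choose SD hSD hSDO using fun p => exists_finset_mem_BRing haux hA (hD p)
  choose SX hSX hSXO using fun p => exists_finset_mem_BRing haux hA (hX p)
  let base : ℂ → ℍ := fun a =>
    if h : ∃ τ, haupt haux.dvd τ = a then h.choose else UpperHalfPlane.I
  set pts : Finset ℍ := (V ×ˢ (Finset.univ : Finset (GalGrp M m))).image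
    fun x => orbPt M m (base x.1) x.2
  refine ⟨pts.biUnion fun p => SE p ∪ SD p ∪ SX p, fun x hx => ?_, fun O hO hsub τ hτ => ?_⟩
  · obtain ⟨p, -, hp⟩ := Finset.mem_biUnion.mp hx
    simp only [Finset.mem_union] at hp
    rcases hp with (h | h) | h
    exacts [hSE p h, hSD p h, hSX p h]
  have hbase : haupt haux.dvd τ = haupt haux.dvd (base (haupt haux.dvd τ)) := by
    have h : ∃ σ, haupt haux.dvd σ = haupt haux.dvd τ := ⟨τ, rfl⟩
    simp only [base, dif_pos h, h.choose_spec]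
  obtain ⟨g, hg⟩ := exists_point_of_hom haux zetaC_goodRoot_top
    (goodPoint_top haux (base (haupt haux.dvd τ)))
    ((Pi.evalRingHom (fun _ : ℍ => ℂ) τ).comp (BRing M (⊤ : Subring ℂ)).subtype) hbase
  have hev : ∀ f ∈ BSub M, f τ = f (orbPt M m (base (haupt haux.dvd τ)) g) :=
    fun f hf => hg ⟨f, mem_BRing_top.mpr hf⟩
  set p := orbPt M m (base (haupt haux.dvd τ)) g
  have hmem : ∀ {x : ℂ}, x ∈ SE p ∪ SD p ∪ SX p → x ∈ O := fun hx =>
    hsub (Finset.mem_biUnion.mpr ⟨p, Finset.mem_image.mpr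
      ⟨(_, g), Finset.mem_product.mpr ⟨hV τ hτ, Finset.mem_univ g⟩, rfl⟩, hx⟩)
  refine ⟨i p, ⟨E p, hSEO p O hO fun x hx => hmem (by simp [Finset.mem_coe.mp hx])⟩,
    ⟨D p, hSDO p O hO fun x hx => hmem (by simp [Finset.mem_coe.mp hx])⟩,
    ⟨X p, hSXO p O hO fun x hx => hmem (by simp [Finset.mem_coe.mp hx])⟩, ?_, ?_, heq p⟩
  · show E p τ ≠ 0
    rw [hev _ (hE p).1]; exact hEp p
  · show X p τ ≠ 0
    rw [hev _ (hX p).1]; exact hXp p

/-- A series whose zeros have multiplicities divisible by `n` has a root. -/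
theorem exists_root_of_witness {O : Subring ℂ} (hO : P.IsCDVR O) {n : ℕ} [NeZero n]
    (hn : n.Coprime ℓ) {F : PowerSeries O}
    (hF : haveI := hO.dvr; PowerSeries.map (IsLocalRing.residue O) F ≠ 0)
    (hw : ∀ ψ : PowerSeries O →+* ℂ, (∀ r, ψ (PowerSeries.C r) = (r : ℂ)) → ψ F = 0 →
      ∃ (i : ℕ) (d e g : PowerSeries O), ψ e ≠ 0 ∧ ψ g ≠ 0 ∧ F * e = d ^ (n * i) * g) :
    ∃ R : PowerSeries P.ring, R ^ n = F.map (Subring.inclusion hO.le) := by
  have := hO.dvr
  have := hO.complete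
  obtain ⟨u, H, hu⟩ := BAD.exists_factor_of_witness O.subtype Subtype.val_injective hF hw
  set U := PowerSeries.map (Subring.inclusion hO.le) (u : PowerSeries O)
  have hu0 : IsUnit (PowerSeries.constantCoeff U) :=
    PowerSeries.isUnit_constantCoeff _ (u.isUnit.map _)
  set u0 := PowerSeries.constantCoeff U
  obtain ⟨w, hw'⟩ := IsAlgClosed.exists_pow_nat_eq (u0 : ℂ) (Nat.pos_of_ne_zero (NeZero.ne n))
  have hw1 : P.abv w = 1 := by
    have h := congrArg P.abv hw'
    rw [map_pow, (P.isUnit_ring_iff u0).mp hu0] at h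
    exact (pow_eq_one_iff_of_nonneg (P.abv.nonneg w) (NeZero.ne n)).mp h
  obtain ⟨uinv, huinv⟩ := hu0.exists_right_inv
  obtain ⟨v, hv⟩ := ((P.isUnit_ring_iff (n : P.ring)).mpr (by
    rw [show (((n : P.ring)) : ℂ) = (n : ℂ) by simp]
    exact P.abv_natCast_eq_one hn)).exists_right_inv
  obtain ⟨W, hW⟩ := exists_series_root (u := PowerSeries.C uinv * U)
    (by rw [map_mul, PowerSeries.constantCoeff_C, mul_comm]; exact huinv) hv
  refine ⟨PowerSeries.map (Subring.inclusion hO.le) H * (PowerSeries.C ⟨w, hw1.le⟩ * W), ?_⟩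
  rw [hu, map_mul, map_pow, mul_pow, mul_pow, hW, ← map_pow PowerSeries.C,
    show (⟨w, hw1.le⟩ : P.ring) ^ n = u0 from Subtype.ext hw', ← mul_assoc _ _ U, ← map_mul, huinv,
    map_one, one_mul, mul_comm]

end FermatAgent.ES
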