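import Fermat.Agent.ES.Local.CuspEval
import Fermat.Agent.ES.Local.Small
import Fermat.Agent.ES.Local.Witness

/-!
# Integral roots at the cusps

For `n` prime to `ℓ`, let `y` be an integral function all of whose orders are divisible by `n`.
At a cusp where `y` has a unit coefficient an `n`th root of its expansion is integral.
-/

set_option autoImplicit false

open UpperHalfPlane CongruenceSubgroup Polynomial
open scoped MatrixGroups

noncomputable section

namespace FermatAgent.ES

theorem powerSeriesPart_mul {R : Type*} [CommRing R] [IsDomain R] {s t : LaurentSeries R}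
    (hs : s ≠ 0) (ht : t ≠ 0) :
    (s * t).powerSeriesPart = s.powerSeriesPart * t.powerSeriesPart := by
  refine HahnSeries.ofPowerSeries_injective (Γ := ℤ) ?_
  have hord : (s * t).order = s.order + t.order := HahnSeries.order_mul hs ht
  rw [map_mul, LaurentSeries.ofPowerSeries_powerSeriesPart,
    LaurentSeries.ofPowerSeries_powerSeriesPart, LaurentSeries.ofPowerSeries_powerSeriesPart, hord,
    neg_add, ← mul_one (1 : R), ← HahnSeries.single_mul_single, mul_one]
  ring

theorem exists_const_of_pow_eq {n : ℕ} [NeZero n] {s T : LaurentSeries ℂ} (hT : T ≠ 0)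
    (h : s ^ n = T ^ n) : ∃ ω : ℂ, ω ^ n = 1 ∧ s = HahnSeries.C ω * T := by
  have hprim : IsPrimitiveRoot (HahnSeries.C (zetaC n) : LaurentSeries ℂ) n :=
    (zetaC_isPrimitiveRoot n).map_of_injective HahnSeries.C_injective
  obtain ⟨i, -, hi⟩ := hprim.eq_pow_of_pow_eq_one (ξ := s / T) (by
    rw [div_pow, h, div_self (pow_ne_zero _ hT)])
  exact ⟨zetaC n ^ i, by rw [← pow_mul, mul_comm, pow_mul, (zetaC_isPrimitiveRoot n).pow_eq_one,
    one_pow], by rw [map_pow, hi, div_mul_cancel₀ _ hT]⟩

/-- A change of coefficients on a monomial. -/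
theorem liftSer_single {R S : Type*} [CommRing R] [CommRing S] (f : R →+* S) (r : ℤ) (a : R) :
    liftSer f (HahnSeries.single r a) = HahnSeries.single r (f a) := by
  ext i
  rw [coeff_liftSer]
  rcases eq_or_ne i r with rfl | hi
  · rw [HahnSeries.coeff_single_same, HahnSeries.coeff_single_same]
  · rw [HahnSeries.coeff_single_of_ne hi, HahnSeries.coeff_single_of_ne hi, map_zero]

/-- An injective change of coefficients keeps the order. -/
private theorem order_liftSer {R S : Type*} [CommRing R] [CommRing S] {f : R →+* S}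
    (hf : Function.Injective f) {x : LaurentSeries R} (hx : x ≠ 0) :
    (liftSer f x).order = x.order := by
  refine le_antisymm (HahnSeries.order_le_of_coeff_ne_zero ?_) ?_
  · rw [coeff_liftSer, ← map_zero f]
    exact hf.ne (HahnSeries.coeff_order_eq_zero.not.mpr hx)
  · by_contra hlt
    push Not at hlt
    have h1 : (liftSer f x).coeff (liftSer f x).order ≠ 0 :=
      HahnSeries.coeff_order_eq_zero.not.mpr fun h => hx
        (liftSer_injective hf (h.trans (map_zero _).symm))
    rw [coeff_liftSer, HahnSeries.coeff_eq_zero_of_lt_order hlt, map_zero] at h1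
    exact h1 rfl

/-- Powers commute with the power series part. -/
private theorem powerSeriesPart_pow {R : Type*} [CommRing R] [IsDomain R] {x : LaurentSeries R}
    (hx : x ≠ 0) : ∀ i : ℕ, (x ^ i).powerSeriesPart = x.powerSeriesPart ^ i
  | 0 => by
    rw [pow_zero, pow_zero]
    ext k
    simp [PowerSeries.coeff_one]
  | i + 1 => by
    rw [pow_succ, powerSeriesPart_mul (pow_ne_zero i hx) hx, powerSeriesPart_pow hx i, pow_succ]

variable {ℓ : ℕ} {P : CPlace ℓ} {M m : ℕ} [NeZero M] (haux : AuxLevel M m)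

omit [NeZero M] in
/-- The power series part of a series over a valuation ring with a unit coefficient is nonzero
modulo the maximal ideal. -/
theorem map_residue_powerSeriesPart_ne_zero {O : Subring ℂ} (hO : P.IsCDVR O) {Y : LaurentSeries O}
    (hu : P.UnitCoeff (liftSer O.subtype Y)) :
    haveI := hO.dvr
    PowerSeries.map (IsLocalRing.residue O) Y.powerSeriesPart ≠ 0 := by
  have := hO.dvr
  intro h0
  obtain ⟨i, hi⟩ := hu
  have hoi : Y.order ≤ i := HahnSeries.order_le_of_coeff_ne_zero fun h => by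
    rw [coeff_liftSer, h, map_zero, map_zero] at hi
    exact zero_ne_one hi
  have hc := congrArg (PowerSeries.coeff (i - Y.order).toNat) h0
  rw [PowerSeries.coeff_map, map_zero, IsLocalRing.residue_eq_zero_iff,
    hO.mem_maximalIdeal_iff, LaurentSeries.powerSeriesPart_coeff,
    show Y.order + ((i - Y.order).toNat : ℤ) = i by omega] at hc
  rw [coeff_liftSer] at hi
  exact hc.ne hi

include haux in
/-- **Integrality at cusps.** At a cusp where an integral function, all of whose orders are
divisible by `n`, has a unit coefficient, an `n`th root of its expansion is integral. -/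
theorem serIn_root_of_unitCoeff (hM : M.Coprime ℓ) (hP : P.HasCDVRs) {n : ℕ} [NeZero n]
    (hn : n.Coprime ℓ) (y : BRing M P.ring) (hy0 : (y : ℍ → ℂ) ≠ 0)
    (hord : ∀ τ (j : ℕ), vanishOrd (y : ℍ → ℂ) τ = j → n ∣ j) (γ : SL(2, ℤ))
    {s : LaurentSeries ℂ} (hs : s ^ n = lexp M γ (y : ℍ → ℂ))
    (hu : P.UnitCoeff (lexp M γ (y : ℍ → ℂ))) : SerIn P.ring s := by
  have hA := P.goodRoot hM
  obtain ⟨Sy, hSy, hyO⟩ := exists_finset_mem_BRing haux hA y.2
  obtain ⟨Sw, hSw, hwO⟩ := exists_finset_witness haux (P := P) hM y.2.1 hy0 hord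
  set S : Set ℂ := (↑Sy ∪ ↑Sw) ∪ {zetaC M}
  obtain ⟨Rg, -, hRg⟩ := hP
  obtain ⟨hO, hsub⟩ := hRg S
    ((Sy.finite_toSet.union Sw.finite_toSet).union (Set.finite_singleton _))
    (Set.union_subset (Set.union_subset hSy hSw) (by simpa using hA.mem))
  set O := Rg S
  have := hO.dvr
  have hA' : GoodRoot M O (zetaC M) := hO.goodRoot hA (hsub (Or.inr rfl))
  set y1 : BRing M O := ⟨y, hyO O hA' fun x hx => hsub (Or.inl (Or.inl hx))⟩
  set Y := cuspSer O γ y1
  rw [← show liftSer O.subtype Y = lexp M γ (y : ℍ → ℂ) from liftSer_cuspSer O γ y1] at hu hs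
  have hY : Y ≠ 0 := fun h => by
    obtain ⟨i, hi⟩ := hu
    rw [h, map_zero] at hi
    simp at hi
  have hne := map_residue_powerSeriesPart_ne_zero hO hu
  obtain ⟨R, hR⟩ := exists_root_of_witness hO hn hne fun ψ hψ h0 => by
    have hX : ψ PowerSeries.X ≠ 0 := fun hX => by
      obtain ⟨G, hG⟩ := PowerSeries.X_dvd_iff.mpr (show PowerSeries.constantCoeff
        (Y.powerSeriesPart - PowerSeries.C (PowerSeries.constantCoeff Y.powerSeriesPart)) = 0 by
          simp)
      have h1 := congrArg ψ hG
      rw [map_sub, h0, hψ, map_mul, hX, zero_mul, zero_sub, neg_eq_zero,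
        ← PowerSeries.coeff_zero_eq_constantCoeff_apply, LaurentSeries.powerSeriesPart_coeff] at h1
      exact HahnSeries.coeff_order_eq_zero.not.mpr hY (by simpa using h1)
    let Ψ : LaurentSeries O →+* ℂ :=
      IsLocalization.Away.lift (PowerSeries.X : PowerSeries O) (g := ψ) (Ne.isUnit hX)
    have hΨ : ∀ F, Ψ (HahnSeries.ofPowerSeries ℤ O F) = ψ F := fun F =>
      IsLocalization.Away.lift_eq (S := LaurentSeries O) (PowerSeries.X : PowerSeries O) _ F
    have hzero : ∀ x : LaurentSeries O, ψ x.powerSeriesPart = 0 → Ψ x = 0 := fun x h => by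
      rw [← LaurentSeries.single_order_mul_powerSeriesPart x, map_mul, hΨ, h, mul_zero]
    obtain ⟨τ, hτ⟩ := exists_point_of_const haux hA' (Ψ.comp (cuspSer O γ)) fun a => by
      have e : cuspSer O γ (⟨_, const_mem_BRing a.2⟩ : BRing M O) =
          HahnSeries.ofPowerSeries ℤ O (PowerSeries.C a) := by
        refine liftSer_injective O.subtype_injective ((liftSer_cuspSer O γ _).trans ?_)
        rw [HahnSeries.ofPowerSeries_C, lexp_eq (γ := γ) (HasLExp.const (a : ℂ))]
        ext k
        rw [coeff_liftSer]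
        rcases eq_or_ne k 0 with rfl | hk
        · simp
        · simp [HahnSeries.C_apply, HahnSeries.coeff_single_of_ne hk]
      rw [RingHom.comp_apply, e, hΨ, hψ]
    obtain ⟨i, E, D, X, hE, hX', heq⟩ := hwO O hA' (fun x hx => hsub (Or.inl (Or.inr hx))) τ
      ((hτ y1).symm.trans (hzero Y h0))
    have hcong := congrArg (cuspSer O γ) (show y1 * E = D ^ (n * i) * X from Subtype.ext heq)
    rw [map_mul, map_mul, map_pow] at hcong
    have hne' : ∀ {x : BRing M O}, (x : ℍ → ℂ) τ ≠ 0 → ψ (cuspSer O γ x).powerSeriesPart ≠ 0 :=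
      fun {x} hx h => hx ((hτ x).symm.trans (hzero _ h))
    have hnz : ∀ {x : BRing M O}, (x : ℍ → ℂ) τ ≠ 0 → cuspSer O γ x ≠ 0 := fun {x} hx h =>
      hx ((hτ x).symm.trans (by rw [RingHom.comp_apply, h, map_zero]))
    have hD : cuspSer O γ D ^ (n * i) ≠ 0 := fun h =>
      mul_ne_zero hY (hnz hE) (by rw [hcong, h, zero_mul])
    refine ⟨i, (cuspSer O γ D).powerSeriesPart, _, _, hne' hE, hne' hX', ?_⟩
    rcases Nat.eq_zero_or_pos (n * i) with h | h
    · rw [h, pow_zero, one_mul] at hcong ⊢
      rw [← powerSeriesPart_mul hY (hnz hE), hcong]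
    · rw [← powerSeriesPart_pow (fun h0 => hD (by rw [h0, zero_pow h.ne'])),
        ← powerSeriesPart_mul hY (hnz hE), ← powerSeriesPart_mul hD (hnz hX'), hcong]
  set T : LaurentSeries ℂ := HahnSeries.single s.order 1 *
    liftSer P.ring.subtype (HahnSeries.ofPowerSeries ℤ P.ring R)
  have hTn : T ^ n = s ^ n := by
    rw [mul_pow, ← map_pow (liftSer P.ring.subtype), ← map_pow (HahnSeries.ofPowerSeries ℤ P.ring),
      hR, HahnSeries.single_pow, one_pow, ← HahnSeries.order_pow, hs,
      order_liftSer O.subtype_injective hY]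
    conv_rhs => rw [← LaurentSeries.single_order_mul_powerSeriesPart Y]
    rw [map_mul, liftSer_ofPowerSeries, liftSer_ofPowerSeries]
    congr 1
    ext k
    rw [coeff_liftSer]
    rcases eq_or_ne k Y.order with rfl | hk
    · simp
    · simp [HahnSeries.coeff_single_of_ne hk]
  have hs0 : s ≠ 0 := fun h => hY (liftSer_injective O.subtype_injective (by
    rw [← hs, h, zero_pow (NeZero.ne n), map_zero]))
  obtain ⟨ω, hω, hsω⟩ := exists_const_of_pow_eq (fun h : T = 0 => by
    rw [h, zero_pow (NeZero.ne n)] at hTn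
    exact pow_ne_zero n hs0 hTn.symm) hTn.symm
  rw [hsω]
  refine (SerIn.C (show ω ∈ P.ring from (P.abv_eq_one_of_pow_eq_one (NeZero.ne n) hω).le)).mul
    (SerIn.mul (fun k => ?_) (fun k => by rw [coeff_liftSer]; exact SetLike.coe_mem _))
  rcases eq_or_ne k s.order with rfl | hk
  · rw [HahnSeries.coeff_single_same]; exact P.ring.one_mem
  · rw [HahnSeries.coeff_single_of_ne hk]; exact P.ring.zero_mem

end FermatAgent.ES
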