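import Fermat.Agent.ES.Local.FinGen
import Mathlib.RingTheory.LaurentSeries

/-!
# Expansions at the cusps with coefficients in a subring of `ℂ`

The expansions at the cusps of a function in `BRing M O` give ring maps `cuspSer` to Laurent series
over `O`; change of coefficients `liftSer` is injective for injective maps.
-/

set_option autoImplicit false

open UpperHalfPlane CongruenceSubgroup
open scoped MatrixGroups

noncomputable section

namespace FermatAgent.ES

/-- Extension of coefficients of a Laurent series. -/
def liftSer {R S : Type*} [CommRing R] [CommRing S] (f : R →+* S) :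
    LaurentSeries R →+* LaurentSeries S where
  toFun s := s.map f
  map_one' := by ext n; simp [HahnSeries.coeff_one, apply_ite f]
  map_mul' _ _ := HahnSeries.map_mul f.toNonUnitalRingHom
  map_zero' := by ext n; simp
  map_add' x y := by ext n; simp

/-- A change of coefficients acts coefficientwise. -/
theorem coeff_liftSer {R S : Type*} [CommRing R] [CommRing S] (f : R →+* S) (s : LaurentSeries R)
    (n : ℤ) : (liftSer f s).coeff n = f (s.coeff n) := rfl

/-- A change of coefficients commutes with the inclusion of power series. -/
theorem liftSer_ofPowerSeries {R S : Type*} [CommRing R] [CommRing S] (f : R →+* S)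
    (F : PowerSeries R) :
    liftSer f (HahnSeries.ofPowerSeries ℤ R F) = HahnSeries.ofPowerSeries ℤ S (F.map f) := by
  ext k
  rw [coeff_liftSer]
  rcases le_or_gt 0 k with hk | hk
  · lift k to ℕ using hk
    rw [HahnSeries.ofPowerSeries_apply_coeff, HahnSeries.ofPowerSeries_apply_coeff,
      PowerSeries.coeff_map]
  · rw [HahnSeries.ofPowerSeries_apply, HahnSeries.ofPowerSeries_apply,
      HahnSeries.embDomain_of_notMem_range, HahnSeries.embDomain_of_notMem_range, map_zero] <;>
    · rintro ⟨q, hq⟩
      simp at hq
      omega

/-- An injective change of coefficients is injective on series. -/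
theorem liftSer_injective {R S : Type*} [CommRing R] [CommRing S] {f : R →+* S}
    (hf : Function.Injective f) : Function.Injective (liftSer f) := fun _ _ h =>
  HahnSeries.ext (funext fun n => hf (congrArg (fun x : LaurentSeries S => x.coeff n) h))

/-- A series over `O` comes from one with coefficients in `O`. -/
theorem exists_liftSer {O : Subring ℂ} {s : LaurentSeries ℂ} (h : SerIn O s) :
    ∃ t : LaurentSeries O, liftSer O.subtype t = s :=
  ⟨⟨fun n => ⟨s.coeff n, h n⟩, s.isPWO_support.mono fun _ hn => fun h0 => hn (Subtype.ext h0)⟩,
    HahnSeries.ext (funext fun _ => rfl)⟩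

variable {M : ℕ} [NeZero M] (O : Subring ℂ) (γ : SL(2, ℤ))

/-- The expansion at the cusp `γ` with coefficients in `O`. -/
def cuspSer : BRing M O →+* LaurentSeries O :=
  have key : ∀ {x : BRing M O} {t : LaurentSeries O}, liftSer O.subtype t = lexp M γ x.1 →
      (exists_liftSer (x.2.2 γ)).choose = t := fun {x t} h =>
    liftSer_injective O.subtype_injective ((exists_liftSer (x.2.2 γ)).choose_spec.trans h.symm)
  let E : BRing M O →+* LaurentSeries ℂ := (expHom (M := M) γ).comp (toBSub (A := O))
  { toFun := fun x => (exists_liftSer (x.2.2 γ)).choose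
    map_one' := key (by rw [map_one]; exact (map_one E).symm)
    map_zero' := key (by rw [map_zero]; exact (map_zero E).symm)
    map_add' := fun x y => key (by
      rw [map_add, (exists_liftSer (x.2.2 γ)).choose_spec, (exists_liftSer (y.2.2 γ)).choose_spec]
      exact (map_add E x y).symm)
    map_mul' := fun x y => key (by
      rw [map_mul, (exists_liftSer (x.2.2 γ)).choose_spec, (exists_liftSer (y.2.2 γ)).choose_spec]
      exact (map_mul E x y).symm) }

/-- `cuspSer` is the expansion at the cusp. -/
theorem liftSer_cuspSer (x : BRing M O) :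
    liftSer O.subtype (cuspSer O γ x) = lexp M γ (x : ℍ → ℂ) :=
  (exists_liftSer (x.2.2 γ)).choose_spec

/-- The fractions of elements of `O`. -/
def fracRing : Subring ℂ := (Subfield.closure (O : Set ℂ)).toSubring

/-- A fraction of `O` times a suitable nonzero element lies in `O`. -/
theorem exists_mul_mem_of_fracRing {x : ℂ} (hx : x ∈ fracRing O) :
    ∃ d ∈ O, d ≠ 0 ∧ d * x ∈ O := by
  obtain ⟨y, hy, z, hz, rfl⟩ := Subfield.mem_closure_iff.mp hx
  rw [Subring.closure_eq] at hy hz
  rcases eq_or_ne z 0 with rfl | hz0
  · exact ⟨1, O.one_mem, one_ne_zero, by simp [O.zero_mem]⟩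
  · exact ⟨z, hz, hz0, by rwa [mul_div_cancel₀ _ hz0]⟩

end FermatAgent.ES
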