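import Fermat.Agent.ES.Local.SmallFun
import Fermat.Agent.ES.Forms.Finite

/-!
# From congruences at all cusps to exact identities

A series approximated `ℓ`-adically to every precision by integral modular functions, with poles of
bounded order, is the expansion of a modular function.
-/

set_option autoImplicit false

open UpperHalfPlane CongruenceSubgroup
open scoped MatrixGroups

noncomputable section

namespace FermatAgent.ES

variable {ℓ : ℕ} {P : CPlace ℓ}

/-- For `n` prime to `ℓ`, close `n`-th powers of congruent series with unit coefficients come from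
close series. -/
theorem CPlace.SerLE.of_pow_sub_pow {c : ℝ} (hc : 0 ≤ c) {n : ℕ} (hn : n.Coprime ℓ)
    {a b : LaurentSeries ℂ} (ha : SerIn P.ring a) (hb : SerIn P.ring b) (hlt : P.SerLT (a - b))
    (hu : P.UnitCoeff b) (h : P.SerLE c (a ^ n - b ^ n)) : P.SerLE c (a - b) := by
  set U := ∑ i ∈ Finset.range n, a ^ i * b ^ (n - 1 - i)
  have hUin : SerIn P.ring U := SerIn.sum _ fun i _ => (ha.pow i).mul (hb.pow _)
  have hsub : ∀ i : ℕ, P.SerLT (a ^ i - b ^ i) := hlt.pow_sub_pow ha hb
  have hmain : P.UnitCoeff U := by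
    refine CPlace.UnitCoeff.of_serLE_sub (s := (n : LaurentSeries ℂ) * b ^ (n - 1)) ?_ ?_ hUin
    · obtain ⟨k, hk⟩ := hu.pow hb (n - 1)
      refine ⟨k, ?_⟩
      rw [← map_natCast HahnSeries.C, HahnSeries.C_apply, HahnSeries.coeff_single_mul, sub_zero,
        map_mul, hk, P.abv_natCast_eq_one hn, one_mul]
    · have e : (n : LaurentSeries ℂ) * b ^ (n - 1) - U =
          ∑ i ∈ Finset.range n, (b ^ i - a ^ i) * b ^ (n - 1 - i) := by
        rw [Finset.sum_congr rfl (fun i _ => sub_mul (b ^ i) (a ^ i) _), Finset.sum_sub_distrib]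
        congr 1
        rw [Finset.sum_congr rfl (g := fun _ => b ^ (n - 1)) (fun i hi => by
          rw [← pow_add]; congr 1; have := Finset.mem_range.mp hi; omega),
          Finset.sum_const, Finset.card_range, nsmul_eq_mul]
      rw [e]
      intro k
      rw [HahnSeries.coeff_sum]
      refine Finset.sum_induction _ (fun y => P.abv y < 1) (fun _ _ => P.add_lt) (by simp)
        fun i _ => ?_
      rw [HahnSeries.coeff_mul]
      refine Finset.sum_induction _ (fun y => P.abv y < 1) (fun _ _ => P.add_lt) (by simp)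
        fun x _ => ?_
      rw [map_mul]
      refine (mul_le_of_le_one_right (P.abv.nonneg _) (hb.pow _ _)).trans_lt ?_
      rw [HahnSeries.coeff_sub, P.abv.map_sub, ← HahnSeries.coeff_sub]
      exact hsub i _
  refine CPlace.SerLE.of_mul_unitCoeff hc hUin hmain ?_ (P.serLE_one_iff.mpr (ha.sub hb))
  rwa [mul_comm, geom_sum₂_mul]

variable (P) in
/-- A sequence approximated to every precision by a finite-dimensional space of sequences belongs
to it. -/
theorem mem_of_forall_abv_sub_le (W : Submodule ℂ (ℤ → ℂ)) [FiniteDimensional ℂ W] (Tv : ℤ → ℂ)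
    (happrox : ∀ c : ℝ, 0 < c → c < 1 → ∃ x ∈ W, ∀ n, P.abv (x n - Tv n) ≤ c) : Tv ∈ W := by
  classical
  by_contra hnot
  obtain ⟨I, hI⟩ := exists_separating (W ⊔ Submodule.span ℂ {Tv})
  set R : (ℤ → ℂ) →ₗ[ℂ] (I → ℂ) := LinearMap.funLeft ℂ ℂ (fun i : I => (i : ℤ))
  have hnot' : R Tv ∉ W.map R := by
    rintro ⟨w, hw, hwe⟩
    have h0 := hI (w - Tv) (sub_mem (Submodule.mem_sup_left hw)
      (Submodule.mem_sup_right (Submodule.mem_span_singleton_self Tv))) fun e he =>
      sub_eq_zero.mpr (congrFun hwe ⟨e, he⟩)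
    exact hnot (sub_eq_zero.mp h0 ▸ hw)
  obtain ⟨ψ, hψT, hψW⟩ := Submodule.exists_dual_map_eq_bot_of_notMem hnot' inferInstance
  set C := ∑ i : I, P.abv (ψ (Pi.single i 1)) with hC
  have hC0 : 0 ≤ C := Finset.sum_nonneg fun i _ => P.abv.nonneg _
  have hle : ∀ c : ℝ, 0 < c → c < 1 → P.abv (ψ (R Tv)) ≤ C * c := by
    intro c hc hc1
    obtain ⟨x, hx, hxc⟩ := happrox c hc hc1
    have h0 : ψ (R x) = 0 := by
      have : ψ (R x) ∈ (W.map R).map ψ := Submodule.mem_map_of_mem (Submodule.mem_map_of_mem hx)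
      rwa [hψW, Submodule.mem_bot] at this
    have e : P.abv (ψ (R Tv)) = P.abv (ψ (R (x - Tv))) := by
      rw [map_sub, map_sub, h0, zero_sub, AbsoluteValue.map_neg]
    rw [e, pi_eq_sum_univ' (R (x - Tv)), map_sum, hC, Finset.sum_mul]
    refine (P.abv.sum_le _ _).trans (Finset.sum_le_sum fun i _ => ?_)
    rw [map_smul, smul_eq_mul, map_mul, mul_comm]
    exact mul_le_mul_of_nonneg_left (hxc _) (P.abv.nonneg _)
  refine hψT ((P.abv.eq_zero).mp (le_antisymm ?_ (P.abv.nonneg _)))
  by_contra hpos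
  push Not at hpos
  obtain ⟨c, hc, hc1, hc2⟩ : ∃ c : ℝ, 0 < c ∧ c < 1 ∧ C * c < P.abv (ψ (R Tv)) := by
    set v := P.abv (ψ (R Tv))
    refine ⟨min (1 / 2) (v / (2 * (C + 1))), lt_min (by norm_num) (by positivity),
      (min_le_left _ _).trans_lt (by norm_num), ?_⟩
    calc C * min (1 / 2) (v / (2 * (C + 1))) ≤ C * (v / (2 * (C + 1))) :=
          mul_le_mul_of_nonneg_left (min_le_right _ _) hC0
      _ < v := by
        rw [mul_div_assoc', div_lt_iff₀ (by positivity)]
        nlinarith
  exact absurd (hle c hc hc1) (not_le.mpr hc2)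

variable {M m : ℕ} [NeZero M] (haux : AuxLevel M m)
include haux

/-- Coefficients at `∞` as a linear map. -/
def coefMap : (BSub M).toSubmodule →ₗ[ℂ] (ℤ → ℂ) where
  toFun f := fun n => (lexp M 1 (f : ℍ → ℂ)).coeff n
  map_add' f g := by
    funext n
    rw [Pi.add_apply, ← HahnSeries.coeff_add]
    congr 1
    exact (expHom (M := M) 1).map_add ⟨f, f.2⟩ ⟨g, g.2⟩
  map_smul' c f := by
    funext n
    rw [Pi.smul_apply, RingHom.id_apply, smul_eq_mul, ← Curve.Red.coeff_lexp_const_mul f.2 c 1 n]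
    rfl

/-- **Exactness.** Laurent series at the cusps approximated to every precision by integral modular
functions are, at `∞`, the expansion of a modular function: the approximations lie in one
finite-dimensional space. -/
theorem exists_mem_BSub_of_approx (hM : M.Coprime ℓ) (ser : SL(2, ℤ) → LaurentSeries ℂ)
    (happ : ∀ c : ℝ, 0 < c → c < 1 → ∃ h ∈ BRing M P.ring, ∀ γ, P.SerLE c (lexp M γ h - ser γ)) :
    ∃ z ∈ BSub M, lexp M 1 z = ser 1 := by
  classical
  have : Fintype (SL(2, ℤ) ⧸ Gamma M) := Fintype.ofFinite _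
  set D := Curve.Red.placeDatum P M hM
  obtain ⟨K, hK⟩ := D.exists_lift haux
    (Finset.univ.sup fun x : SL(2, ℤ) ⧸ Gamma M => (-(ser x.out).order).toNat)
  set V := Submodule.span ℂ (Curve.Red.RedDatum.liftGen haux K)
  have hVle : V ≤ (BSub M).toSubmodule := Submodule.span_le.mpr fun x hx =>
    (Curve.Red.RedDatum.liftGen_subset haux (P.goodRoot hM) K hx).1
  have : FiniteDimensional ℂ V :=
    FiniteDimensional.span_of_finite ℂ (Curve.Red.RedDatum.liftGen_finite haux K)
  set W : Submodule ℂ (ℤ → ℂ) :=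
    LinearMap.range ((coefMap (M := M)).comp (Submodule.inclusion hVle))
  -- approximations inside `V`
  have happrox : ∀ c : ℝ, 0 < c → c < 1 → ∃ x ∈ W, ∀ n, P.abv (x n - (ser 1).coeff n) ≤ c := by
    intro c hc hc1
    obtain ⟨h, hh, hclose⟩ := happ c hc hc1
    -- the deep poles of `h` are small, as `ser` has none
    obtain ⟨h', hh', hle⟩ := hK (P.ball c hc.le) (P.mul_mem_ball hc.le) h hh fun γ n hn => by
      obtain ⟨δ, hδ⟩ := QuotientGroup.mk_out_eq_mul (Gamma M) γ
      set γ' := (γ : SL(2, ℤ) ⧸ Gamma M).out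
      have e : lexp M γ' h = lexp M γ h := by
        rw [hδ, show γ * (δ : SL(2, ℤ)) = (γ * δ * γ⁻¹) * γ by group]
        exact lexp_mul_of_mem hh.1 ((Gamma_normal M).conj_mem _ δ.2 γ) γ
      have h1 := hclose γ' n
      rw [HahnSeries.coeff_sub, HahnSeries.coeff_eq_zero_of_lt_order (x := ser γ') (by
        have := Finset.le_sup (f := fun x : SL(2, ℤ) ⧸ Gamma M => (-(ser x.out).order).toNat)
          (Finset.mem_univ (γ : SL(2, ℤ) ⧸ Gamma M))
        simp only [γ'] at this ⊢
        omega), sub_zero, e] at h1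
      exact h1
    have hh'V : h' ∈ V := by
      clear hle
      induction hh' using Submodule.span_induction with
      | mem x hx => exact Submodule.subset_span hx
      | zero => exact zero_mem _
      | add x y _ _ hx hy => exact add_mem hx hy
      | smul a x _ hx => rw [D.coe_smul_eq]; exact Submodule.smul_mem _ (a : ℂ) hx
    refine ⟨_, ⟨⟨h', hh'V⟩, rfl⟩, fun n => ?_⟩
    show P.abv ((lexp M 1 h').coeff n - (ser 1).coeff n) ≤ c
    have h1 := CPlace.SerLE.sub (hclose 1) (fun k => by
      have := hle 1 k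
      rwa [Curve.Red.lexp_sub hh.1 (hVle hh'V)] at this) n
    rwa [sub_sub_sub_cancel_left, HahnSeries.coeff_sub] at h1
  -- linear algebra
  set Tv : ℤ → ℂ := fun n => (ser 1).coeff n
  suffices hTv : Tv ∈ W by
    obtain ⟨z, hz⟩ := hTv
    refine ⟨(z : ℍ → ℂ), hVle z.2, HahnSeries.ext (funext fun n => congrFun hz n)⟩
  exact mem_of_forall_abv_sub_le P W Tv happrox

end FermatAgent.ES
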