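import Fermat.Agent.ES.Local.Small
import Fermat.Agent.Curve.Red.QExpansion

/-!
# Smallness of integral modular functions and the good part of polynomials in `t`

Smallness of an integral modular function is read on its expansion at `∞`. A polynomial in `t`
with nonzero reduction is, up to small terms and a factor, a product of `t - x` with good values
`x` (`exists_good_factor`).
-/

set_option autoImplicit false

open UpperHalfPlane CongruenceSubgroup Polynomial
open scoped MatrixGroups

noncomputable section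

namespace FermatAgent.ES

variable {ℓ : ℕ} (P : CPlace ℓ) {M m : ℕ} [NeZero M] (haux : AuxLevel M m) (hM : M.Coprime ℓ)

/-- The expansion at `∞`. -/
def infExp : BRing M P.ring →+* LaurentSeries ℂ :=
  (expHom (M := M) 1).comp
    { toFun := fun x => ⟨x.1, x.2.1⟩
      map_one' := rfl
      map_mul' := fun _ _ => rfl
      map_zero' := rfl
      map_add' := fun _ _ => rfl }

/-- `infExp` is the expansion at `∞`. -/
theorem infExp_apply (f : BRing M P.ring) : infExp P f = lexp M 1 (f : ℍ → ℂ) := rfl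

/-- The expansion at `∞` of an integral function is integral. -/
theorem serIn_infExp (f : BRing M P.ring) : SerIn P.ring (infExp P f) := f.2.2 1

/-- Constants as a homomorphism. -/
def constB : P.ring →+* BRing M P.ring where
  toFun a := ⟨fun _ => (a : ℂ), const_mem_BRing a.2⟩
  map_one' := rfl
  map_mul' _ _ := rfl
  map_zero' := rfl
  map_add' _ _ := rfl

/-- The expansion of a constant is that constant. -/
theorem infExp_constB (a : P.ring) : infExp P (constB P (M := M) a) = HahnSeries.C (a : ℂ) :=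
  lexp_eq (HasLExp.const _)

/-- Functions whose expansion at `∞` is at most `c`. -/
def smallIdeal (c : ℝ) (hc : 0 ≤ c) : Ideal (BRing M P.ring) where
  carrier := {f | P.SerLE c (infExp P f)}
  zero_mem' := by
    show P.SerLE c (infExp P 0)
    rw [map_zero]
    exact CPlace.SerLE.zero hc
  add_mem' {f g} hf hg := by
    show P.SerLE c (infExp P (f + g))
    rw [map_add]
    exact hf.add hg
  smul_mem' r f hf := by
    show P.SerLE c (infExp P (r * f))
    rw [map_mul]
    exact CPlace.SerLE.serIn_mul hc (serIn_infExp P r) hf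

/-- Membership in the ideal of functions bounded by `c`. -/
theorem mem_smallIdeal {c : ℝ} (hc : 0 ≤ c) {f : BRing M P.ring} :
    f ∈ smallIdeal P c hc ↔ P.SerLE c (infExp P f) := Iff.rfl

/-- Functions whose expansion at `∞` lies in the maximal ideal. -/
def maxSmall : Ideal (BRing M P.ring) where
  carrier := {f | P.SerLT (infExp P f)}
  zero_mem' := by
    intro n
    simp
  add_mem' {f g} hf hg n := by
    rw [map_add, HahnSeries.coeff_add]
    exact P.add_lt (hf n) (hg n)
  smul_mem' r f hf n := by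
    rw [smul_eq_mul, map_mul, HahnSeries.coeff_mul]
    refine Finset.sum_induction _ (fun y => P.abv y < 1) (fun _ _ => P.add_lt) (by simp)
      fun x _ => ?_
    rw [map_mul]
    exact (mul_le_of_le_one_left (P.abv.nonneg _) (serIn_infExp P r _)).trans_lt (hf _)

/-- Membership in the ideal of small functions. -/
theorem mem_maxSmall {f : BRing M P.ring} : f ∈ maxSmall P ↔ P.SerLT (infExp P f) := Iff.rfl

/-- Functions bounded by `c < 1` are small. -/
theorem smallIdeal_le_maxSmall {c : ℝ} (hc : 0 ≤ c) (hc1 : c < 1) :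
    smallIdeal P c hc ≤ maxSmall (M := M) P := fun _ hf n => (hf n).trans_lt hc1

/-- The ideals of bounded functions multiply. -/
theorem smallIdeal_mul {c d : ℝ} (hc : 0 ≤ c) (hd : 0 ≤ d) {f g : BRing M P.ring}
    (hf : f ∈ smallIdeal P c hc) (hg : g ∈ smallIdeal P d hd) :
    f * g ∈ smallIdeal P (c * d) (mul_nonneg hc hd) := by
  rw [mem_smallIdeal, map_mul]
  exact hf.mul hc hd hg

/-- Cancellation of factors with a unit coefficient. -/
theorem mem_smallIdeal_of_mul {c : ℝ} (hc : 0 ≤ c) {p f : BRing M P.ring}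
    (hp : P.UnitCoeff (infExp P p)) (h : p * f ∈ smallIdeal P c hc) : f ∈ smallIdeal P c hc := by
  rw [mem_smallIdeal, map_mul, mul_comm] at h
  exact CPlace.SerLE.of_mul_unitCoeff hc (serIn_infExp P p) hp h
    (P.serLE_one_iff.mpr (serIn_infExp P f))

/-- A factor with a unit coefficient can be cancelled from a small product. -/
theorem mem_maxSmall_of_mul {p f : BRing M P.ring} (hp : P.UnitCoeff (infExp P p))
    (h : p * f ∈ maxSmall P) : f ∈ maxSmall P := by
  by_contra hno
  have hu : P.UnitCoeff (infExp P f) := by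
    by_contra h'
    exact hno (CPlace.serLT_of_not_unitCoeff (serIn_infExp P f) h')
  obtain ⟨n, hn⟩ := CPlace.UnitCoeff.mul (serIn_infExp P p) (serIn_infExp P f) hp hu
  have := h n
  rw [map_mul, hn] at this
  exact lt_irrefl _ this

include haux hM in
/-- Small functions are small multiples of integral functions. -/
theorem exists_eq_constB_mul {c : ℝ} (hc : 0 ≤ c) {f : BRing M P.ring}
    (hf : f ∈ smallIdeal P c hc) :
    ∃ (a : P.ring) (g : BRing M P.ring), P.abv (a : ℂ) ≤ c ∧ f = constB P a * g := by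
  by_cases hf0 : (f : ℍ → ℂ) = 0
  · exact ⟨0, 0, by simpa using hc, Subtype.ext (by simp [hf0])⟩
  obtain ⟨a, -, g, hg, hfg, n0, hn0⟩ :=
    Curve.Red.exists_normalize_one P haux hM f.2.1 hf0
  have e : ∀ n, (infExp P f).coeff n = a * (lexp M 1 g).coeff n := fun n => by
    rw [infExp_apply, hfg]
    exact Curve.Red.coeff_lexp_const_mul hg.1 a 1 n
  have hac : P.abv a ≤ c := by
    have := hf n0
    rwa [e, map_mul, hn0, mul_one] at this
  have ha1 : a ∈ P.ring := by
    have := serIn_infExp P f n0
    rwa [e, CPlace.mem_ring, map_mul, hn0, mul_one, ← CPlace.mem_ring] at this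
  exact ⟨⟨a, ha1⟩, ⟨g, hg⟩, hac, Subtype.ext hfg⟩

include haux hM in
/-- A small function is a constant of absolute value `< 1` times an integral function. -/
theorem exists_eq_constB_mul_of_maxSmall {f : BRing M P.ring} (hf : f ∈ maxSmall P) :
    ∃ (a : P.ring) (g : BRing M P.ring), P.abv (a : ℂ) < 1 ∧ f = constB P a * g := by
  by_cases hf0 : (f : ℍ → ℂ) = 0
  · exact ⟨0, 0, by simp, Subtype.ext (by simp [hf0])⟩
  obtain ⟨a, -, g, hg, hfg, n0, hn0⟩ :=
    Curve.Red.exists_normalize_one P haux hM f.2.1 hf0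
  have hac : P.abv a < 1 := by
    have := hf n0
    rwa [infExp_apply, hfg, Curve.Red.coeff_lexp_const_mul hg.1, map_mul, hn0, mul_one] at this
  exact ⟨⟨a, hac.le⟩, ⟨g, hg⟩, hac, Subtype.ext hfg⟩

/-- The Hauptmodul in `BRing M P.ring`. -/
def tB : BRing M P.ring :=
  ⟨_, polRing_le_BRing haux (P.goodRoot hM) (haupt_mem_polRing haux P.ring)⟩

/-- `t - b`. -/
def tSub (b : P.ring) : BRing M P.ring := tB P haux hM - constB P b

include haux hM in
/-- `t - b` has a unit coefficient. -/
theorem unitCoeff_tSub (b : P.ring) : P.UnitCoeff (infExp P (tSub P haux hM b)) := by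
  by_contra hno
  have := haux.neZero
  have hlt := CPlace.serLT_of_not_unitCoeff (serIn_infExp P (tSub P haux hM b)) hno
  have h := leadUnit_polFun haux (P.goodRoot hM) 1 1 (one_le haux)
  rw [(polOrd_table haux.small 1 (one_le haux) 1 (one_le haux)).1 rfl] at h
  set e : ℤ := ((M / m : ℕ) : ℤ) * -1 with he
  have he0 : e ≠ 0 := by
    have : 0 < M / m := Nat.div_pos (Nat.le_of_dvd (Nat.pos_of_ne_zero (NeZero.ne M)) haux.dvd)
      (one_le haux)
    omega
  have h1 := Curve.Red.coeff_mem_maxBall P haux hM (tSub P haux hM b).2 hlt (cuspRep 1) e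
  have hl : lexp M (cuspRep 1) (tSub P haux hM b : ℍ → ℂ) =
      lexp M (cuspRep 1) (haupt haux.dvd) - HahnSeries.C (b : ℂ) := by
    refine lexp_eq ?_
    show HasLExp M (act (cuspRep 1) (haupt haux.dvd - fun _ => (b : ℂ))) _
    rw [act_sub, act_const]
    exact (hasLExp_lexp (polFun_mem_BSub haux 1 (one_le haux)) _).sub (HasLExp.const _)
  rw [hl, HahnSeries.coeff_sub, HahnSeries.C_apply, HahnSeries.coeff_single_of_ne he0, sub_zero,
    CPlace.mem_maxBall] at h1
  exact h1.ne (P.abv_eq_one_of_unitIn h.unitIn_coeff)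

include haux hM in
theorem exists_inv_tSub {r : P.ring}
    (hr : (r : ℂ) = 0 ∨ (r : ℂ) = 1 ∨ (r : ℂ) = hauptRoot haux) :
    ∃ w : BRing M P.ring, tSub P haux hM r * w = 1 := by
  have hA := P.goodRoot hM
  have h2 : ∀ h : (r : ℂ) = 0, ∃ w : BRing M P.ring, tSub P haux hM r * w = 1 := fun h =>
    ⟨⟨_, polFun_mem_BRing haux hA (two_le haux)⟩, Subtype.ext (funext fun τ => by
      have := congrFun (polFun_two_mul_haupt haux) τ
      simp only [Pi.mul_apply, Pi.one_apply] at this
      show (haupt haux.dvd τ - (r : ℂ)) * polFun haux.dvd 2 τ = 1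
      rw [h, sub_zero, mul_comm, this])⟩
  rcases hr with h | h | h
  · exact h2 h
  · refine ⟨⟨_, polFun_mem_BRing haux hA (j := 0) (Nat.zero_le _)⟩,
      Subtype.ext (funext fun τ => ?_)⟩
    have := congrFun (polFun_zero_mul haux) τ
    simp only [Pi.mul_apply, Pi.one_apply, Pi.sub_apply] at this
    show (haupt haux.dvd τ - (r : ℂ)) * polFun haux.dvd 0 τ = 1
    rw [h, mul_comm, this]
  · by_cases hm : m = 3
    · obtain ⟨-, -, -, α, hα, hαe⟩ := polFun_three haux hm hA
      refine ⟨constB P ⟨α⁻¹, hα.2.2⟩ *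
        ⟨_, polFun_mem_BRing haux hA (j := 3) (by omega)⟩, Subtype.ext (funext fun τ => ?_)⟩
      show (haupt haux.dvd τ - (r : ℂ)) * (α⁻¹ * polFun haux.dvd 3 τ) = 1
      rw [h, mul_left_comm, mul_comm (_ - _), hαe τ, inv_mul_cancel₀ hα.1]
    · exact h2 (by rw [h, hauptRoot, if_neg hm])

/-- `∏ (t - b)`. -/
def linProd (L : Multiset P.ring) : BRing M P.ring := (L.map (tSub P haux hM)).prod

/-- Polynomials in `t`. -/
def evalT : P.ring[X] →+* BRing M P.ring := eval₂RingHom (constB P) (tB P haux hM)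

/-- A polynomial in `t` is evaluated pointwise. -/
theorem evalT_apply (F : P.ring[X]) (τ : ℍ) :
    (evalT P haux hM F : ℍ → ℂ) τ = (F.map P.ring.subtype).eval (haupt haux.dvd τ) := by
  show ((Pi.evalRingHom (fun _ : ℍ => ℂ) τ).comp (BRing M P.ring).subtype)
    (F.eval₂ (constB P) (tB P haux hM)) = _
  rw [hom_eval₂, eval_map]
  rfl

/-- `1 - x` is invertible up to `c` when `x` is a small multiple of an integral function. -/
theorem exists_one_sub_mul_sub_one_mem {c : ℝ} (hc : 0 < c) {x : BRing M P.ring} {a : P.ring}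
    {g : BRing M P.ring} (ha : P.abv (a : ℂ) < 1) (hx : x = constB P a * g) :
    ∃ W, (1 - x) * W - 1 ∈ smallIdeal P c hc.le := by
  obtain ⟨k, hk⟩ := exists_pow_lt_of_lt_one hc ha
  refine ⟨∑ i ∈ Finset.range k, x ^ i, ?_⟩
  rw [mul_neg_geom_sum, sub_sub_cancel_left, neg_mem_iff, hx, mul_pow, ← map_pow]
  refine Ideal.mul_mem_right _ _ fun n => ?_
  rw [infExp_constB, SubmonoidClass.coe_pow, HahnSeries.C_apply]
  rcases eq_or_ne n 0 with rfl | hn
  · rw [HahnSeries.coeff_single_same, map_pow]; exact hk.le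
  · rw [HahnSeries.coeff_single_of_ne hn, map_zero]; exact hc.le

include hM in
/-- A value which is not good reduces to one of the values `0`, `1` and `hauptRoot`. -/
theorem exists_abv_sub_lt_one_of_not_goodVal {b : ℂ} (hb : P.abv b ≤ 1)
    (hgood : ¬ GoodVal haux P.ring b) : ∃ r : P.ring,
      ((r : ℂ) = 0 ∨ (r : ℂ) = 1 ∨ (r : ℂ) = hauptRoot haux) ∧ P.abv (b - r) < 1 := by
  obtain ⟨hroot, -, -⟩ := hauptRoot_spec haux (P.goodRoot hM)
  by_contra hall
  push Not at hall
  refine hgood ⟨?_, ?_, ?_⟩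
  · exact P.unitIn_of_abv_eq_one (le_antisymm hb (by simpa using hall 0 (Or.inl rfl)))
  · exact P.unitIn_of_abv_eq_one (le_antisymm (P.ring.sub_mem hb P.ring.one_mem)
      (by simpa using hall 1 (Or.inr (Or.inl rfl))))
  · exact P.unitIn_of_abv_eq_one (le_antisymm (P.ring.sub_mem hb hroot)
      (hall ⟨_, hroot⟩ (Or.inr (Or.inr rfl))))

include haux hM in
/-- A linear polynomial `t - b` is, up to small terms and a factor, a product of `t - x` with good
values `x`, of which there is at most one. -/
theorem exists_good_factor_root {c : ℝ} (hc : 0 < c) (b : ℂ) :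
    ∃ (φ W : BRing M P.ring) (u : ℂ) (L : Multiset P.ring),
      (∀ τ, haupt haux.dvd τ - b = u * (φ : ℍ → ℂ) τ) ∧ P.UnitCoeff (infExp P φ) ∧
        φ * W - linProd P haux hM L ∈ smallIdeal P c hc.le ∧
        ∀ x ∈ L, GoodVal haux P.ring (x : ℂ) := by
  have hgeom := fun x a g =>
    exists_one_sub_mul_sub_one_mem P (M := M) hc (x := x) (a := a) (g := g)
  rcases le_or_gt (P.abv b) 1 with hb | hb
  · set b' : P.ring := ⟨b, hb⟩
    by_cases hgood : GoodVal haux P.ring b
    · refine ⟨tSub P haux hM b', 1, 1, {b'}, fun τ => (one_mul _).symm,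
        unitCoeff_tSub P haux hM b', ?_, by simpa using hgood⟩
      rw [linProd, Multiset.map_singleton, Multiset.prod_singleton, mul_one, sub_self]
      exact zero_mem _
    · obtain ⟨r, hr, hbr⟩ := exists_abv_sub_lt_one_of_not_goodVal P haux hM hb hgood
      obtain ⟨w, hw⟩ := exists_inv_tSub P haux hM hr
      obtain ⟨W, hW⟩ := hgeom (constB P (b' - r) * w) (b' - r) w hbr rfl
      refine ⟨tSub P haux hM b', w * W, 1, 0, fun τ => (one_mul _).symm,
        unitCoeff_tSub P haux hM b', ?_, by simp⟩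
      rw [linProd, Multiset.map_zero, Multiset.prod_zero]
      have e : tSub P haux hM b' = tSub P haux hM r * (1 - constB P (b' - r) * w) := by
        rw [mul_sub, mul_one, mul_left_comm, hw, mul_one, tSub, tSub, map_sub]
        ring
      rw [e, show tSub P haux hM r * (1 - constB P (b' - r) * w) * (w * W) =
        (tSub P haux hM r * w) * ((1 - constB P (b' - r) * w) * W) by ring, hw, one_mul]
      exact hW
  · have hb0 : b ≠ 0 := fun h => by rw [h, map_zero] at hb; linarith
    have hinv : P.abv b⁻¹ < 1 := by rw [map_inv₀]; exact inv_lt_one_of_one_lt₀ hb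
    set x : BRing M P.ring := constB P ⟨b⁻¹, hinv.le⟩ * tB P haux hM
    obtain ⟨W, hW⟩ := hgeom x ⟨b⁻¹, hinv.le⟩ (tB P haux hM) hinv rfl
    refine ⟨1 - x, W, -b, 0, fun τ => ?_, ?_, by simpa [linProd] using hW, by simp⟩
    · show _ = -b * (1 - b⁻¹ * haupt haux.dvd τ)
      field_simp
      ring
    · refine CPlace.UnitCoeff.of_serLE_sub (s := infExp P (1 : BRing M P.ring)) ?_ ?_
        (serIn_infExp P _)
      · exact ⟨0, by rw [map_one]; simp⟩
      · intro n
        rw [← map_sub, sub_sub_cancel, map_mul, infExp_constB, HahnSeries.C_apply,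
          HahnSeries.coeff_single_mul, sub_zero, map_mul]
        exact (mul_le_of_le_one_right (P.abv.nonneg _)
          (serIn_infExp P (tB P haux hM) n)).trans_lt hinv

include haux hM in
/-- A polynomial in `t` with nonzero reduction is, up to small terms and a factor, a product of
`t - b` with good `b`. -/
theorem exists_good_factor {c : ℝ} (hc : 0 < c) (F : P.ring[X])
    (hF : P.UnitCoeff (infExp P (evalT P haux hM F))) :
    ∃ (W : BRing M P.ring) (L : Multiset P.ring),
      evalT P haux hM F * W - linProd P haux hM L ∈ smallIdeal P c hc.le ∧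
        ∀ x ∈ L, GoodVal haux P.ring (x : ℂ) := by
  set FC := F.map P.ring.subtype
  obtain ⟨Φ, W, u, L, hΦ, hΦu, hW, hL⟩ : ∃ (Φ W : BRing M P.ring) (u : ℂ) (L : Multiset P.ring),
      (∀ τ, (FC.roots.map fun b => haupt haux.dvd τ - b).prod = u * (Φ : ℍ → ℂ) τ) ∧
        P.UnitCoeff (infExp P Φ) ∧
        Φ * W - linProd P haux hM L ∈ smallIdeal P c hc.le ∧
        ∀ x ∈ L, GoodVal haux P.ring (x : ℂ) := by
    induction FC.roots using Multiset.induction_on with
    | empty => exact ⟨1, 1, 1, 0, fun τ => by simp, ⟨0, by rw [map_one]; simp⟩,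
        by simp [linProd], by simp⟩
    | cons b R ih =>
      obtain ⟨Φ, W, u, L, hΦ, hΦu, hW, hL⟩ := ih
      obtain ⟨φ, W', u', L', hφ, hφu, hW', hL'⟩ := exists_good_factor_root P haux hM hc b
      refine ⟨φ * Φ, W' * W, u' * u, L' + L, fun τ => ?_, ?_, ?_, fun x hx =>
        (Multiset.mem_add.mp hx).elim (hL' x) (hL x)⟩
      · rw [Multiset.map_cons, Multiset.prod_cons, hΦ, hφ]
        show _ = _ * ((φ : ℍ → ℂ) τ * (Φ : ℍ → ℂ) τ)
        ring
      · rw [map_mul]
        exact CPlace.UnitCoeff.mul (serIn_infExp P _) (serIn_infExp P _) hφu hΦu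
      · have e : φ * Φ * (W' * W) - linProd P haux hM (L' + L) =
            (φ * W' - linProd P haux hM L') * (Φ * W) +
              linProd P haux hM L' * (Φ * W - linProd P haux hM L) := by
          rw [linProd, linProd, linProd, Multiset.map_add, Multiset.prod_add]
          ring
        rw [e]
        exact add_mem (Ideal.mul_mem_right _ _ hW') (Ideal.mul_mem_left _ _ hW)
  set a := FC.leadingCoeff * u with ha
  have hval : ∀ τ, (evalT P haux hM F : ℍ → ℂ) τ = a * (Φ : ℍ → ℂ) τ := fun τ => by
    rw [evalT_apply, ha, mul_assoc, ← hΦ τ]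
    rw [show F.map P.ring.subtype = FC from rfl]
    conv_lhs => rw [(IsAlgClosed.splits FC).eq_prod_roots]
    simp [eval_multiset_prod, Multiset.map_map]
  have hcoef : ∀ n, (infExp P (evalT P haux hM F)).coeff n = a * (infExp P Φ).coeff n := fun n => by
    rw [infExp_apply, infExp_apply, show (evalT P haux hM F : ℍ → ℂ) = (fun _ => a) * (Φ : ℍ → ℂ)
      from funext hval]
    exact Curve.Red.coeff_lexp_const_mul Φ.2.1 a 1 n
  have ha1 : P.abv a = 1 := by
    obtain ⟨n, hn⟩ := hF
    obtain ⟨k, hk⟩ := hΦu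
    rw [hcoef, map_mul] at hn
    refine le_antisymm ?_ ?_
    · have := serIn_infExp P (evalT P haux hM F) k
      rwa [hcoef, CPlace.mem_ring, map_mul, hk, mul_one] at this
    · calc (1 : ℝ) = _ := hn.symm
        _ ≤ P.abv a := mul_le_of_le_one_right (P.abv.nonneg _) (serIn_infExp P Φ n)
  have hu := P.unitIn_of_abv_eq_one ha1
  refine ⟨constB P ⟨a⁻¹, hu.2.2⟩ * W, L, ?_, hL⟩
  have e : evalT P haux hM F * (constB P ⟨a⁻¹, hu.2.2⟩ * W) = Φ * W := by
    refine Subtype.ext (funext fun τ => ?_)
    show (evalT P haux hM F : ℍ → ℂ) τ * (a⁻¹ * (W : ℍ → ℂ) τ) =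
      (Φ : ℍ → ℂ) τ * (W : ℍ → ℂ) τ
    rw [hval]
    field_simp [hu.1]
  rw [e]
  exact hW

end FermatAgent.ES
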